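import Fermat.Agent.S14.Analytic.Defs

/-!
# S14, analytic core, A1: basic facts on `term`, `zetaSum`, link with Mathlib's `dedekindZeta`
-/

set_option autoImplicit false

namespace Fermat.Agent.S14.Analytic

open NumberField Ideal Filter Topology
open scoped nonZeroDivisors

variable (K : Type*) [Field K] [NumberField K]

theorem absNorm_pos' (I : (Ideal (𝓞 K))⁰) : 0 < absNorm (I : Ideal (𝓞 K)) := by
  have h : (I : Ideal (𝓞 K)) ≠ ⊥ := mem_nonZeroDivisors_iff_ne_zero.mp I.2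
  exact Nat.pos_of_ne_zero (fun h0 => h (Ideal.absNorm_eq_zero_iff.mp h0))

theorem one_le_absNorm (I : (Ideal (𝓞 K))⁰) : (1 : ℝ) ≤ absNorm (I : Ideal (𝓞 K)) := by
  exact_mod_cast absNorm_pos' K I

theorem term_pos (s : ℝ) (I : (Ideal (𝓞 K))⁰) : 0 < term K s I :=
  Real.rpow_pos_of_pos (Nat.cast_pos.mpr (absNorm_pos' K I)) _

theorem term_one (s : ℝ) : term K s 1 = 1 := by
  simp [term]

theorem term_mul (s : ℝ) (I J : (Ideal (𝓞 K))⁰) :
    term K s (I * J) = term K s I * term K s J := by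
  simp only [term, Submonoid.coe_mul, map_mul, Nat.cast_mul]
  exact Real.mul_rpow (Nat.cast_nonneg _) (Nat.cast_nonneg _)

/-- for a proper ideal and `s ≥ 1`: `N(I)^(-s) ≤ 1/2`. -/
theorem term_le_half {s : ℝ} (hs : 1 ≤ s) (I : (Ideal (𝓞 K))⁰) (hI : (I : Ideal (𝓞 K)) ≠ ⊤) :
    term K s I ≤ 1 / 2 := by
  have h1 : absNorm (I : Ideal (𝓞 K)) ≠ 1 := fun h => hI (Ideal.absNorm_eq_one_iff.mp h)
  have h2 : 2 ≤ absNorm (I : Ideal (𝓞 K)) := by
    have := absNorm_pos' K I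
    omega
  have h2' : (2 : ℝ) ≤ absNorm (I : Ideal (𝓞 K)) := by exact_mod_cast h2
  have hpos : (0 : ℝ) < absNorm (I : Ideal (𝓞 K)) := by linarith
  unfold term
  rw [Real.rpow_neg hpos.le, one_div]
  apply inv_anti₀ (by norm_num)
  calc (2 : ℝ) ≤ absNorm (I : Ideal (𝓞 K)) := h2'
    _ = (absNorm (I : Ideal (𝓞 K)) : ℝ) ^ (1 : ℝ) := (Real.rpow_one _).symm
    _ ≤ (absNorm (I : Ideal (𝓞 K)) : ℝ) ^ s :=
        Real.rpow_le_rpow_of_exponent_le (by linarith) hs

/-- `term` is antitone in `s`. -/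
theorem term_anti {s t : ℝ} (hst : s ≤ t) (I : (Ideal (𝓞 K))⁰) : term K t I ≤ term K s I :=
  Real.rpow_le_rpow_of_exponent_le (one_le_absNorm K I) (neg_le_neg hst)

/-- the real Dirichlet coefficients summand. -/
noncomputable def coeffTerm (s : ℝ) (n : ℕ) : ℝ :=
  if n = 0 then 0 else (Nat.card {I : Ideal (𝓞 K) // absNorm I = n} : ℝ) * (n : ℝ) ^ (-s)

theorem lseries_term_eq (s : ℝ) (n : ℕ) :
    LSeries.term (fun n ↦ (Nat.card {I : Ideal (𝓞 K) // absNorm I = n} : ℂ)) (s : ℂ) n =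
      ((coeffTerm K s n : ℝ) : ℂ) := by
  unfold coeffTerm LSeries.term
  split_ifs with h
  · simp
  · have hn : (0 : ℝ) ≤ n := Nat.cast_nonneg n
    rw [Complex.ofReal_mul, Complex.ofReal_natCast, Real.rpow_neg hn, Complex.ofReal_inv,
      Complex.ofReal_cpow hn, Complex.ofReal_natCast, div_eq_mul_inv]

theorem lseriesSummable {s : ℝ} (hs : 1 < s) :
    LSeriesSummable (fun n ↦ (Nat.card {I : Ideal (𝓞 K) // absNorm I = n} : ℂ)) (s : ℂ) := by
  have hlim : Tendsto (fun n : ℕ ↦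
      (∑ k ∈ Finset.Icc 1 n, (Nat.card {I : Ideal (𝓞 K) // absNorm I = k} : ℝ)) / (n : ℝ))
      atTop (𝓝 (dedekindZeta_residue K)) := by
    refine ((Ideal.tendsto_norm_le_div_atTop₀ K).comp tendsto_natCast_atTop_atTop).congr
      fun n ↦ ?_
    simp only [Function.comp_apply, Nat.cast_le, ← Nat.cast_sum]
    congr
    rw [← add_left_inj 1, ← card_norm_le_eq_card_norm_le_add_one,
      show Finset.Icc 1 n = Finset.Ioc 0 n from Finset.Icc_succ_left_eq_Ioc _ _,
      show 1 = Nat.card {I : Ideal (𝓞 K) // absNorm I = 0} by simp [Ideal.absNorm_eq_zero_iff],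
      Finset.sum_Ioc_add_eq_sum_Icc (n.zero_le),
      ← Finset.card_preimage_eq_sum_card_image_eq (fun k _ ↦ finite_setOfPred_absNorm_eq k)]
    simp [Set.coe_eq_subtype]
  have := LSeriesSummable_of_sum_norm_bigO_and_nonneg
    (f := fun n ↦ (Nat.card {I : Ideal (𝓞 K) // absNorm I = n} : ℝ)) (r := 1) (s := (s : ℂ))
    (Asymptotics.isBigO_atTop_natCast_rpow_of_tendsto_div_rpow (by simpa using hlim))
    (fun _ ↦ Nat.cast_nonneg _) zero_le_one (by simpa using hs)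
  simpa using this

theorem summable_coeffTerm {s : ℝ} (hs : 1 < s) : Summable (coeffTerm K s) := by
  have h := lseriesSummable K hs
  unfold LSeriesSummable at h
  have h2 : Summable (fun n ↦ ((coeffTerm K s n : ℝ) : ℂ)) := by
    refine h.congr fun n ↦ ?_
    exact lseries_term_eq K s n
  exact Complex.summable_ofReal.mp h2

theorem ofReal_tsum_coeffTerm (s : ℝ) :
    ((∑' n, coeffTerm K s n : ℝ) : ℂ) = dedekindZeta K (s : ℂ) := by
  rw [Complex.ofReal_tsum]
  unfold dedekindZeta LSeries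
  exact tsum_congr fun n ↦ (lseries_term_eq K s n).symm

/-- the fibre of the norm over `n ≠ 0`, in nonzero ideals versus all ideals. -/
noncomputable def fiberEquiv {n : ℕ} (hn : n ≠ 0) :
    {I : (Ideal (𝓞 K))⁰ // absNorm (I : Ideal (𝓞 K)) = n} ≃
      {I : Ideal (𝓞 K) // absNorm I = n} where
  toFun I := ⟨I.1.1, I.2⟩
  invFun I := ⟨⟨I.1, mem_nonZeroDivisors_iff_ne_zero.mpr (fun h => hn (by
    have := I.2
    rw [h] at this
    simpa using this.symm))⟩, I.2⟩
  left_inv _ := rfl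
  right_inv _ := rfl

instance finite_fiber (n : ℕ) :
    Finite {I : (Ideal (𝓞 K))⁰ // absNorm (I : Ideal (𝓞 K)) = n} := by
  have : Finite {I : Ideal (𝓞 K) // absNorm I = n} := finite_setOfPred_absNorm_eq n
  exact Finite.of_injective
    (fun I ↦ (⟨I.1.1, I.2⟩ : {I : Ideal (𝓞 K) // absNorm I = n}))
    (fun a b h ↦ by
      apply Subtype.ext; apply Subtype.ext
      exact congrArg (fun x : {I : Ideal (𝓞 K) // absNorm I = n} ↦ x.1) h)

theorem tsum_fiber (s : ℝ) (n : ℕ) :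
    ∑' I : {I : (Ideal (𝓞 K))⁰ // absNorm (I : Ideal (𝓞 K)) = n}, term K s I.1 =
      coeffTerm K s n := by
  have h1 : ∀ I : {I : (Ideal (𝓞 K))⁰ // absNorm (I : Ideal (𝓞 K)) = n},
      term K s I.1 = (n : ℝ) ^ (-s) := fun I ↦ by
    unfold term; rw [I.2]
  rw [tsum_congr h1, tsum_const]
  unfold coeffTerm
  split_ifs with h
  · subst h
    have : IsEmpty {I : (Ideal (𝓞 K))⁰ // absNorm (I : Ideal (𝓞 K)) = 0} :=
      ⟨fun I ↦ (absNorm_pos' K I.1).ne' I.2⟩
    simp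
  · rw [Nat.card_congr (fiberEquiv K h), nsmul_eq_mul]

theorem summable_term {s : ℝ} (hs : 1 < s) : Summable (term K s) := by
  rw [← (Equiv.sigmaFiberEquiv
    (fun I : (Ideal (𝓞 K))⁰ ↦ absNorm (I : Ideal (𝓞 K)))).summable_iff]
  refine (summable_sigma_of_nonneg (fun x ↦ (term_pos K s _).le)).mpr
    ⟨fun n ↦ Summable.of_finite, ?_⟩
  refine (summable_coeffTerm K hs).congr fun n ↦ ?_
  exact (tsum_fiber K s n).symm

theorem zetaSum_eq_tsum_coeffTerm {s : ℝ} (hs : 1 < s) :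
    zetaSum K s = ∑' n, coeffTerm K s n := by
  unfold zetaSum
  have hsum := summable_term K hs
  rw [← (Equiv.sigmaFiberEquiv
    (fun I : (Ideal (𝓞 K))⁰ ↦ absNorm (I : Ideal (𝓞 K)))).summable_iff] at hsum
  rw [← (Equiv.sigmaFiberEquiv
    (fun I : (Ideal (𝓞 K))⁰ ↦ absNorm (I : Ideal (𝓞 K)))).tsum_eq]
  refine (hsum.tsum_sigma).trans ?_
  exact tsum_congr fun n ↦ tsum_fiber K s n

theorem ofReal_zetaSum {s : ℝ} (hs : 1 < s) :
    ((zetaSum K s : ℝ) : ℂ) = dedekindZeta K (s : ℂ) := by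
  rw [zetaSum_eq_tsum_coeffTerm K hs, ofReal_tsum_coeffTerm]

theorem zetaSum_nonneg (s : ℝ) : 0 ≤ zetaSum K s :=
  tsum_nonneg fun I ↦ (term_pos K s I).le

theorem zetaSum_anti {s t : ℝ} (hs : 1 < s) (hst : s ≤ t) : zetaSum K t ≤ zetaSum K s :=
  (summable_term K (hs.trans_le hst)).tsum_le_tsum (fun I ↦ term_anti K hst I)
    (summable_term K hs)

theorem tendsto_zetaSum :
    Tendsto (fun s : ℝ ↦ (s - 1) * zetaSum K s) (𝓝[>] 1) (𝓝 (dedekindZeta_residue K)) := by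
  have h := tendsto_sub_one_mul_dedekindZeta_nhdsGT K
  have h2 : Tendsto (fun s : ℝ ↦ (((s - 1) * zetaSum K s : ℝ) : ℂ)) (𝓝[>] 1)
      (𝓝 ((dedekindZeta_residue K : ℝ) : ℂ)) := by
    refine h.congr' ?_
    filter_upwards [self_mem_nhdsWithin] with s hs
    rw [Complex.ofReal_mul, ofReal_zetaSum K hs]
    simp
  exact Filter.tendsto_ofReal_iff.mp h2

theorem exists_sub_one_mul_zetaSum_le :
    ∃ B : ℝ, ∀ s : ℝ, 1 < s → s ≤ 2 → (s - 1) * zetaSum K s ≤ B := by
  have h := tendsto_zetaSum K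
  have hev : ∀ᶠ s in 𝓝[>] (1 : ℝ), (s - 1) * zetaSum K s < dedekindZeta_residue K + 1 :=
    h.eventually (gt_mem_nhds (by linarith))
  rw [eventually_nhdsWithin_iff, Metric.eventually_nhds_iff] at hev
  obtain ⟨δ, hδ, hball⟩ := hev
  refine ⟨max (dedekindZeta_residue K + 1) (zetaSum K (1 + δ)), fun s hs1 hs2 ↦ ?_⟩
  by_cases hsδ : s < 1 + δ
  · refine le_max_of_le_left (hball ?_ hs1).le
    rw [Real.dist_eq, abs_of_pos (by linarith)]
    linarith
  · refine le_max_of_le_right ?_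
    have h1 : zetaSum K s ≤ zetaSum K (1 + δ) :=
      zetaSum_anti K (by linarith) (not_lt.mp hsδ)
    have h0 := zetaSum_nonneg K s
    calc (s - 1) * zetaSum K s ≤ 1 * zetaSum K s :=
          mul_le_mul_of_nonneg_right (by linarith) h0
      _ = zetaSum K s := one_mul _
      _ ≤ _ := h1

end Fermat.Agent.S14.Analytic
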