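import Mathlib

/-!
# S14-A2: removal of finitely many Euler factors (owner: helper270)
-/

set_option autoImplicit false
set_option linter.unusedSectionVars false

open scoped NumberField nonZeroDivisors

namespace Fermat.Agent.S14.Analytic

section abstract

variable {M 𝕜 : Type*} [CommMonoid M] [NormedField 𝕜]

open Classical in
/-- the family obtained by removing the multiples of the members of `T` -/
noncomputable def sieve (f : M → 𝕜) (T : Finset M) (I : M) : 𝕜 :=
  if ∀ q ∈ T, ¬ (q ∣ I) then f I else 0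

lemma norm_sieve_le (f : M → 𝕜) (T : Finset M) (I : M) : ‖sieve f T I‖ ≤ ‖f I‖ := by
  unfold sieve
  split_ifs
  · exact le_rfl
  · simp

lemma summable_norm_sieve {f : M → 𝕜} (hf : Summable fun I ↦ ‖f I‖) (T : Finset M) :
    Summable fun I ↦ ‖sieve f T I‖ :=
  Summable.of_nonneg_of_le (fun _ => norm_nonneg _) (norm_sieve_le f T) hf

lemma summable_sieve [CompleteSpace 𝕜] {f : M → 𝕜} (hf : Summable fun I ↦ ‖f I‖) (T : Finset M) :
    Summable (sieve f T) :=
  (summable_norm_sieve hf T).of_norm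

/-- abstract version: `T` consists of pairwise non-dividing "primes" of a cancellative monoid -/
theorem prod_one_sub_mul_tsum_abstract [CompleteSpace 𝕜] (f : M →* 𝕜)
    (hf : Summable fun I ↦ ‖f I‖) (T : Finset M)
    (hcancel : ∀ q ∈ T, Function.Injective fun I : M => q * I)
    (hT : ∀ q ∈ T, ∀ a b : M, q ∣ a * b → q ∣ a ∨ q ∣ b)
    (hT2 : ∀ q ∈ T, ∀ q' ∈ T, q ∣ q' → q = q') :
    (∏ q ∈ T, (1 - f q)) * ∑' I, f I = ∑' I, sieve f T I := by
  classical
  induction T using Finset.induction_on with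
  | empty => simp [sieve]
  | insert q T hq ih =>
    have ih' := ih (fun q' hq' => hcancel q' (Finset.mem_insert_of_mem hq'))
      (fun q' hq' => hT q' (Finset.mem_insert_of_mem hq'))
      (fun a ha b hb => hT2 a (Finset.mem_insert_of_mem ha) b (Finset.mem_insert_of_mem hb))
    rw [Finset.prod_insert hq, mul_assoc, ih', sub_mul, one_mul]
    -- the multiples of `q`
    set h : M → 𝕜 := fun J => if q ∣ J then sieve f T J else 0 with hh
    have hsplit : ∀ J, sieve f T J = h J + sieve f (insert q T) J := by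
      intro J
      simp only [hh, sieve, Finset.forall_mem_insert]
      by_cases h1 : q ∣ J <;> by_cases h2 : ∀ q ∈ T, ¬ (q ∣ J) <;> simp [h1, h2]
    have hsum_h : Summable h := by
      refine Summable.of_norm (Summable.of_nonneg_of_le (fun _ => norm_nonneg _) (fun J => ?_)
        (summable_norm_sieve hf T))
      simp only [hh]
      split_ifs
      · exact le_rfl
      · simp
    have hmul : ∀ I, f q * sieve f T I = h (q * I) := by
      intro I
      have hiff : (∀ q' ∈ T, ¬ (q' ∣ q * I)) ↔ ∀ q' ∈ T, ¬ (q' ∣ I) := by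
        refine forall₂_congr fun q' hq' => not_congr ⟨fun hd => ?_, fun hd => hd.mul_left q⟩
        rcases hT q' (Finset.mem_insert_of_mem hq') q I hd with h1 | h1
        · have := hT2 q' (Finset.mem_insert_of_mem hq') q (Finset.mem_insert_self q T) h1
          exact absurd (this ▸ hq') hq
        · exact h1
      simp only [hh, dvd_mul_right, if_true, sieve, hiff]
      split_ifs
      · rw [map_mul]
      · rw [mul_zero]
    have hinj : Function.Injective (fun I : M => q * I) := hcancel q (Finset.mem_insert_self q T)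
    have hsupp : Function.support h ⊆ Set.range (fun I : M => q * I) := by
      intro J hJ
      simp only [Function.mem_support, hh] at hJ
      by_cases h1 : q ∣ J
      · obtain ⟨I, rfl⟩ := h1
        exact ⟨I, rfl⟩
      · simp [h1] at hJ
    have h1 : f q * ∑' I, sieve f T I = ∑' J, h J := by
      rw [← tsum_mul_left, ← hinj.tsum_eq hsupp]
      exact tsum_congr hmul
    rw [h1, tsum_congr hsplit, (hsum_h).tsum_add (summable_sieve hf _)]
    ring

end abstract

section ideals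

variable (K : Type*) [Field K] [NumberField K]

lemma ideal_prime_like (q : (Ideal (𝓞 K))⁰) (hq : (q : Ideal (𝓞 K)).IsPrime)
    (a b : (Ideal (𝓞 K))⁰) (h : q ∣ a * b) : q ∣ a ∨ q ∣ b := by
  have hq0 : (q : Ideal (𝓞 K)) ≠ ⊥ := nonZeroDivisors.coe_ne_zero q
  have hp : Prime (q : Ideal (𝓞 K)) := Ideal.prime_of_isPrime hq0 hq
  rw [nonZeroDivisors_dvd_iff_dvd_coe] at h ⊢
  rw [nonZeroDivisors_dvd_iff_dvd_coe]
  exact hp.dvd_or_dvd (by simpa using h)

lemma ideal_prime_eq (q q' : (Ideal (𝓞 K))⁰) (hq : (q : Ideal (𝓞 K)).IsPrime)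
    (hq' : (q' : Ideal (𝓞 K)).IsPrime) (h : q ∣ q') : q = q' := by
  have hq0 : (q : Ideal (𝓞 K)) ≠ ⊥ := nonZeroDivisors.coe_ne_zero q
  have hq0' : (q' : Ideal (𝓞 K)) ≠ ⊥ := nonZeroDivisors.coe_ne_zero q'
  rw [nonZeroDivisors_dvd_iff_dvd_coe, Ideal.dvd_iff_le] at h
  have hmax : (q' : Ideal (𝓞 K)).IsMaximal := hq'.isMaximal hq0'
  exact Subtype.ext (hmax.eq_of_le hq.ne_top h).symm

lemma ideal_mul_injective (q : (Ideal (𝓞 K))⁰) :
    Function.Injective fun I : (Ideal (𝓞 K))⁰ => q * I := by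
  intro I J h
  have h' : (q : Ideal (𝓞 K)) * I = q * J := by
    simpa using congrArg (Subtype.val) h
  exact Subtype.ext (mul_left_cancel₀ (nonZeroDivisors.coe_ne_zero q) h')

open Classical in
theorem prod_one_sub_mul_tsum (f : (Ideal (𝓞 K))⁰ →* ℂ) (hf : Summable fun I ↦ ‖f I‖)
    (T : Finset (Ideal (𝓞 K))⁰) (hT : ∀ q ∈ T, (q : Ideal (𝓞 K)).IsPrime) :
    (∏ q ∈ T, (1 - f q)) * ∑' I, f I =
      ∑' I : (Ideal (𝓞 K))⁰, if ∀ q ∈ T, ¬ (q ∣ I) then f I else 0 :=
  prod_one_sub_mul_tsum_abstract f hf T (fun q _ => ideal_mul_injective K q)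
    (fun q hq => ideal_prime_like K q (hT q hq))
    (fun q hq q' hq' => ideal_prime_eq K q q' (hT q hq) (hT q' hq'))

open Classical in
theorem summable_sieve_ideal (f : (Ideal (𝓞 K))⁰ →* ℂ) (hf : Summable fun I ↦ ‖f I‖)
    (T : Finset (Ideal (𝓞 K))⁰) :
    Summable fun I : (Ideal (𝓞 K))⁰ => if ∀ q ∈ T, ¬ (q ∣ I) then f I else 0 :=
  summable_sieve hf T

open Classical in
theorem prod_one_sub_mul_tsum_real (g : (Ideal (𝓞 K))⁰ →* ℝ) (hg : Summable fun I ↦ ‖g I‖)
    (T : Finset (Ideal (𝓞 K))⁰) (hT : ∀ q ∈ T, (q : Ideal (𝓞 K)).IsPrime) :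
    (∏ q ∈ T, (1 - g q)) * ∑' I, g I =
      ∑' I : (Ideal (𝓞 K))⁰, if ∀ q ∈ T, ¬ (q ∣ I) then g I else 0 :=
  prod_one_sub_mul_tsum_abstract g hg T (fun q _ => ideal_mul_injective K q)
    (fun q hq => ideal_prime_like K q (hT q hq))
    (fun q hq q' hq' => ideal_prime_eq K q q' (hT q hq) (hT q' hq'))

open Classical in
theorem summable_sieve_ideal_real (g : (Ideal (𝓞 K))⁰ →* ℝ) (hg : Summable fun I ↦ ‖g I‖)
    (T : Finset (Ideal (𝓞 K))⁰) :
    Summable fun I : (Ideal (𝓞 K))⁰ => if ∀ q ∈ T, ¬ (q ∣ I) then g I else 0 :=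
  summable_sieve hg T

end ideals

end Fermat.Agent.S14.Analytic
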