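import Fermat.Agent.S14.Analytic.Defs

/-!
# S14-A3: primes of residue degree `≥ 2` contribute a bounded Euler factor
-/

set_option autoImplicit false

namespace Fermat.Agent.S14.Analytic

open NumberField Ideal
open scoped nonZeroDivisors

theorem inv_one_sub_le_exp {x : ℝ} (h0 : 0 ≤ x) (h1 : x ≤ 1 / 2) : (1 - x)⁻¹ ≤ Real.exp (2 * x) := by
  have h2 : (1 - x)⁻¹ ≤ 1 + 2 * x := by
    rw [inv_le_iff_one_le_mul₀ (by linarith)]
    nlinarith
  have h3 : 2 * x + 1 ≤ Real.exp (2 * x) := Real.add_one_le_exp _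
  linarith

variable (K : Type*) [Field K] [NumberField K]

/-- the rational prime under an ideal -/
noncomputable def primeUnder (q : Ideal (𝓞 K)) : ℕ := absNorm (under ℤ q)

variable {K}

omit [NumberField K] in
theorem primeUnder_prime {q : Ideal (𝓞 K)} (hq : q.IsPrime) (h0 : q ≠ ⊥) :
    (primeUnder K q).Prime := by
  have : NeZero q := ⟨h0⟩
  exact Nat.absNorm_under_prime q

theorem sq_primeUnder_le_absNorm {q : Ideal (𝓞 K)} (hq : q.IsPrime) (h0 : q ≠ ⊥)
    (hn : ¬ (absNorm q).Prime) : primeUnder K q ^ 2 ≤ absNorm q := by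
  have hp := primeUnder_prime hq h0
  have : q.LiesOver (span {(primeUnder K q : ℤ)}) := Int.liesOver_span_absNorm q
  have h := absNorm_eq_pow_inertiaDeg' q hp
  rw [h]
  apply Nat.pow_le_pow_right hp.pos
  by_contra hlt
  push Not at hlt
  interval_cases hf : (span {(primeUnder K q : ℤ)}).inertiaDeg' q
  · rw [pow_zero, absNorm_eq_one_iff] at h
    exact hq.ne_top h
  · rw [pow_one] at h
    exact hn (h ▸ hp)

theorem card_filter_primeUnder_le (T : Finset (Ideal (𝓞 K))⁰)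
    (hT : ∀ q ∈ T, (q : Ideal (𝓞 K)).IsPrime) (ℓ : ℕ) :
    (T.filter fun q : (Ideal (𝓞 K))⁰ => primeUnder K (q : Ideal (𝓞 K)) = ℓ).card ≤ Module.finrank ℚ K := by
  classical
  by_cases hne : (T.filter fun q : (Ideal (𝓞 K))⁰ => primeUnder K (q : Ideal (𝓞 K)) = ℓ).Nonempty
  · obtain ⟨q0, hq0⟩ := hne
    rw [Finset.mem_filter] at hq0
    have hℓ : ℓ.Prime := hq0.2 ▸ primeUnder_prime (hT q0 hq0.1) (nonZeroDivisors.coe_ne_zero q0)
    have : Fact ℓ.Prime := ⟨hℓ⟩
    have hp0 : (span {(ℓ : ℤ)} : Ideal ℤ) ≠ ⊥ := by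
      simpa using hℓ.ne_zero
    refine le_trans ?_ (Ideal.card_primesOverFinset_le_finrank (R := ℤ) (S := 𝓞 K) (K := ℚ) (L := K)
      (p := span {(ℓ : ℤ)}) hp0)
    apply Finset.card_le_card_of_injOn (fun q : (Ideal (𝓞 K))⁰ => (q : Ideal (𝓞 K)))
    · intro q hq
      rw [Finset.coe_filter, Set.mem_ofPred_eq] at hq
      rw [Finset.mem_coe, IsDedekindDomain.mem_primesOverFinset_iff hp0]
      refine ⟨hT q hq.1, ?_⟩
      rw [← hq.2]
      exact Int.liesOver_span_absNorm _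
    · intro a _ b _ hab
      exact Subtype.ext hab
  · rw [Finset.not_nonempty_iff_eq_empty] at hne
    rw [hne]
    simp

theorem prod_nonprime_norm_bounded (K : Type*) [Field K] [NumberField K] :
    ∃ B : ℝ, 1 ≤ B ∧ ∀ (T : Finset (Ideal (𝓞 K))⁰),
      (∀ q ∈ T, (q : Ideal (𝓞 K)).IsPrime ∧ ¬ (absNorm (q : Ideal (𝓞 K))).Prime) →
      ∀ s : ℝ, 1 ≤ s → ∏ q ∈ T, (1 - term K s q)⁻¹ ≤ B := by
  classical
  have hsum : Summable (fun k : ℕ => 1 / (k : ℝ) ^ 2) :=
    Real.summable_one_div_nat_pow.2 (by norm_num)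
  set Z : ℝ := ∑' k : ℕ, 1 / (k : ℝ) ^ 2 with hZ
  have hZ0 : 0 ≤ Z := tsum_nonneg fun k => by positivity
  refine ⟨Real.exp (2 * (Module.finrank ℚ K * Z)), Real.one_le_exp (by positivity), ?_⟩
  intro T hT s hs
  -- pointwise estimates
  have hterm : ∀ q ∈ T, 0 ≤ term K s q ∧
      term K s q ≤ 1 / (primeUnder K (q : Ideal (𝓞 K)) : ℝ) ^ 2 := by
    intro q hq
    have h0 : (q : Ideal (𝓞 K)) ≠ ⊥ := nonZeroDivisors.coe_ne_zero q
    have hp := primeUnder_prime (hT q hq).1 h0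
    have hle := sq_primeUnder_le_absNorm (hT q hq).1 h0 (hT q hq).2
    have hle' : ((primeUnder K (q : Ideal (𝓞 K)) : ℝ)) ^ 2 ≤ (absNorm (q : Ideal (𝓞 K)) : ℝ) := by
      exact_mod_cast hle
    have hpos : (0 : ℝ) < (primeUnder K (q : Ideal (𝓞 K)) : ℝ) ^ 2 := by
      have : (0 : ℝ) < (primeUnder K (q : Ideal (𝓞 K)) : ℝ) := by exact_mod_cast hp.pos
      positivity
    have hN1 : (1 : ℝ) ≤ (absNorm (q : Ideal (𝓞 K)) : ℝ) := by
      have : (1 : ℝ) ≤ (primeUnder K (q : Ideal (𝓞 K)) : ℝ) := by exact_mod_cast hp.one_lt.le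
      nlinarith
    refine ⟨by unfold term; positivity, ?_⟩
    unfold term
    calc (absNorm (q : Ideal (𝓞 K)) : ℝ) ^ (-s)
        ≤ (absNorm (q : Ideal (𝓞 K)) : ℝ) ^ (-1 : ℝ) :=
          Real.rpow_le_rpow_of_exponent_le hN1 (by linarith)
      _ = 1 / (absNorm (q : Ideal (𝓞 K)) : ℝ) := by rw [Real.rpow_neg_one, one_div]
      _ ≤ 1 / (primeUnder K (q : Ideal (𝓞 K)) : ℝ) ^ 2 := one_div_le_one_div_of_le hpos hle'
  have hhalf : ∀ q ∈ T, term K s q ≤ 1 / 2 := by
    intro q hq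
    have h0 : (q : Ideal (𝓞 K)) ≠ ⊥ := nonZeroDivisors.coe_ne_zero q
    have hp := primeUnder_prime (hT q hq).1 h0
    have h2 : (2 : ℝ) ≤ (primeUnder K (q : Ideal (𝓞 K)) : ℝ) := by exact_mod_cast hp.two_le
    refine le_trans (hterm q hq).2 ?_
    apply one_div_le_one_div_of_le (by norm_num)
    nlinarith
  calc ∏ q ∈ T, (1 - term K s q)⁻¹
      ≤ ∏ q ∈ T, Real.exp (2 * term K s q) := by
        apply Finset.prod_le_prod
        · intro q hq
          have := hhalf q hq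
          exact inv_nonneg.2 (by linarith)
        · intro q hq
          exact inv_one_sub_le_exp (hterm q hq).1 (hhalf q hq)
    _ = Real.exp (2 * ∑ q ∈ T, term K s q) := by
        rw [← Real.exp_sum, Finset.mul_sum]
    _ ≤ Real.exp (2 * (Module.finrank ℚ K * Z)) := by
        apply Real.exp_le_exp.2
        apply mul_le_mul_of_nonneg_left _ (by norm_num)
        calc ∑ q ∈ T, term K s q
            ≤ ∑ q ∈ T, 1 / (primeUnder K (q : Ideal (𝓞 K)) : ℝ) ^ 2 :=
              Finset.sum_le_sum fun q hq => (hterm q hq).2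
          _ = ∑ ℓ ∈ T.image (fun q : (Ideal (𝓞 K))⁰ => primeUnder K (q : Ideal (𝓞 K))),
                (T.filter fun q : (Ideal (𝓞 K))⁰ => primeUnder K (q : Ideal (𝓞 K)) = ℓ).card • (1 / (ℓ : ℝ) ^ 2) :=
              Finset.sum_comp (fun ℓ : ℕ => 1 / (ℓ : ℝ) ^ 2)
                (fun q : (Ideal (𝓞 K))⁰ => primeUnder K (q : Ideal (𝓞 K)))
          _ ≤ ∑ ℓ ∈ T.image (fun q : (Ideal (𝓞 K))⁰ => primeUnder K (q : Ideal (𝓞 K))),
                (Module.finrank ℚ K : ℝ) * (1 / (ℓ : ℝ) ^ 2) := by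
              apply Finset.sum_le_sum
              intro ℓ _
              rw [nsmul_eq_mul]
              apply mul_le_mul_of_nonneg_right _ (by positivity)
              exact_mod_cast card_filter_primeUnder_le T (fun q hq => (hT q hq).1) ℓ
          _ = (Module.finrank ℚ K : ℝ) *
                ∑ ℓ ∈ T.image (fun q : (Ideal (𝓞 K))⁰ => primeUnder K (q : Ideal (𝓞 K))), 1 / (ℓ : ℝ) ^ 2 := by
              rw [Finset.mul_sum]
          _ ≤ (Module.finrank ℚ K : ℝ) * Z := by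
              apply mul_le_mul_of_nonneg_left _ (by positivity)
              exact hsum.sum_le_tsum _ (fun k _ => by positivity)

end Fermat.Agent.S14.Analytic
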