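import Mathlib

/-!
# S14, analytic core: definitions

`term K s I = (N I)^(-s)` on nonzero ideals, `zetaSum`, `classZeta`, `lSum`.
-/

set_option autoImplicit false

namespace Fermat.Agent.S14.Analytic

open NumberField Ideal
open scoped nonZeroDivisors

variable (K : Type*) [Field K] [NumberField K]

/-- `N(I)^(-s)` for a nonzero ideal `I`. -/
noncomputable def term (s : ℝ) (I : (Ideal (𝓞 K))⁰) : ℝ :=
  (absNorm (I : Ideal (𝓞 K)) : ℝ) ^ (-s)

/-- Dedekind zeta as a real sum over nonzero ideals. -/
noncomputable def zetaSum (s : ℝ) : ℝ := ∑' I : (Ideal (𝓞 K))⁰, term K s I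

open Classical in
/-- partial zeta function of an ideal class. -/
noncomputable def classZeta (C : ClassGroup (𝓞 K)) (s : ℝ) : ℝ :=
  ∑' I : (Ideal (𝓞 K))⁰, if ClassGroup.mk0 I = C then term K s I else 0

/-- `L(s, X)` for a class group character. -/
noncomputable def lSum (X : ClassGroup (𝓞 K) →* ℂ) (s : ℝ) : ℂ :=
  ∑' I : (Ideal (𝓞 K))⁰, X (ClassGroup.mk0 I) * (term K s I : ℂ)

open NumberField.mixedEmbedding NumberField.Units.dirichletUnitTheorem in
variable {K} in
/-- the smoothed summand `w(logMap x) * N(x)^(-s)` on the mixed space (it is `0` when `N x = 0`). -/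
noncomputable def F (w : logSpace K → ℝ) (s : ℝ) (x : mixedSpace K) : ℝ :=
  w (logMap x) * (mixedEmbedding.norm x) ^ (-s)

end Fermat.Agent.S14.Analytic
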