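import Fermat.Agent.S14.Analytic.Basic
import Fermat.Agent.S14.Analytic.EulerFactor

/-!
# S14 analytic core, A4: the key inequality
-/

set_option autoImplicit false

namespace Fermat.Agent.S14.Analytic

open NumberField Ideal Filter Topology
open scoped nonZeroDivisors

variable (K : Type*) [Field K] [NumberField K]

/-- `term` as a monoid hom to `ℂ`. -/
noncomputable def termHom (s : ℝ) : (Ideal (𝓞 K))⁰ →* ℂ where
  toFun I := (term K s I : ℂ)
  map_one' := by simp [term_one]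
  map_mul' I J := by simp [term_mul]

/-- `X(I) N(I)^(-s)` as a monoid hom to `ℂ`. -/
noncomputable def twistHom (X : ClassGroup (𝓞 K) →* ℂ) (s : ℝ) : (Ideal (𝓞 K))⁰ →* ℂ where
  toFun I := X (ClassGroup.mk0 I) * (term K s I : ℂ)
  map_one' := by simp [term_one]
  map_mul' I J := by simp only [map_mul, term_mul, Complex.ofReal_mul]; ring

variable {K}

lemma norm_char (X : ClassGroup (𝓞 K) →* ℂ) (c : ClassGroup (𝓞 K)) : ‖X c‖ = 1 := by
  have h : (X c) ^ (orderOf c) = 1 := by rw [← map_pow, pow_orderOf_eq_one, map_one]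
  exact Complex.norm_eq_one_of_pow_eq_one h (orderOf_pos c).ne'

lemma norm_termHom (s : ℝ) (I : (Ideal (𝓞 K))⁰) : ‖termHom K s I‖ = term K s I := by
  simp [termHom, abs_of_pos (term_pos K s I)]

lemma norm_twistHom (X : ClassGroup (𝓞 K) →* ℂ) (s : ℝ) (I : (Ideal (𝓞 K))⁰) :
    ‖twistHom K X s I‖ = term K s I := by
  simp [twistHom, norm_char, abs_of_pos (term_pos K s I)]

/-- if all prime divisors of `I` are killed by `X`, so is `I`. -/
lemma char_eq_one_of_forall_prime (X : ClassGroup (𝓞 K) →* ℂ) (I : (Ideal (𝓞 K))⁰)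
    (h : ∀ q : (Ideal (𝓞 K))⁰, (q : Ideal (𝓞 K)).IsPrime → q ∣ I → X (ClassGroup.mk0 q) = 1) :
    X (ClassGroup.mk0 I) = 1 := by
  obtain ⟨J, hJ⟩ := I
  induction J using UniqueFactorizationMonoid.induction_on_prime with
  | h₁ => exact absurd rfl (mem_nonZeroDivisors_iff_ne_zero.mp hJ)
  | h₂ x hx =>
    have : (⟨x, hJ⟩ : (Ideal (𝓞 K))⁰) = 1 := by
      ext1
      simpa using hx
    rw [this]; simp
  | h₃ a p ha hp ih =>
    have hp0 : p ∈ (Ideal (𝓞 K))⁰ := mem_nonZeroDivisors_iff_ne_zero.mpr hp.ne_zero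
    have ha0 : a ∈ (Ideal (𝓞 K))⁰ := mem_nonZeroDivisors_iff_ne_zero.mpr ha
    have e : (⟨p * a, hJ⟩ : (Ideal (𝓞 K))⁰) = ⟨p, hp0⟩ * ⟨a, ha0⟩ := rfl
    rw [e, map_mul, map_mul, h ⟨p, hp0⟩ (Ideal.isPrime_of_prime hp) (e ▸ Dvd.intro _ rfl),
      ih ha0 (fun q hq hqa => h q hq (e ▸ Dvd.dvd.mul_left hqa _)), one_mul]

lemma summable_norm_termHom {s : ℝ} (hs : 1 < s) : Summable fun I ↦ ‖termHom K s I‖ := by
  simpa only [norm_termHom] using summable_term K hs

lemma summable_norm_twistHom (X : ClassGroup (𝓞 K) →* ℂ) {s : ℝ} (hs : 1 < s) :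
    Summable fun I ↦ ‖twistHom K X s I‖ := by
  simpa only [norm_twistHom] using summable_term K hs

open Classical in
lemma summable_good {s : ℝ} (hs : 1 < s) (P : (Ideal (𝓞 K))⁰ → Prop) :
    Summable fun I : (Ideal (𝓞 K))⁰ ↦ if P I then term K s I else 0 := by
  refine Summable.of_nonneg_of_le (fun I ↦ ?_) (fun I ↦ ?_) (summable_term K hs)
  · split_ifs
    · exact (term_pos K s I).le
    · exact le_rfl
  · split_ifs
    · exact le_rfl
    · exact (term_pos K s I).le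

open Classical in
/-- real form of the Euler factor removal for `zetaSum`. -/
lemma real_factor {s : ℝ} (hs : 1 < s) (T : Finset (Ideal (𝓞 K))⁰)
    (hT : ∀ q ∈ T, (q : Ideal (𝓞 K)).IsPrime) :
    (∏ q ∈ T, (1 - term K s q)) * zetaSum K s =
      ∑' I : (Ideal (𝓞 K))⁰, if ∀ q ∈ T, ¬ (q ∣ I) then term K s I else 0 := by
  have h := prod_one_sub_mul_tsum K (termHom K s) (summable_norm_termHom hs) T hT
  apply Complex.ofReal_injective
  rw [Complex.ofReal_mul, Complex.ofReal_prod, zetaSum, Complex.ofReal_tsum, Complex.ofReal_tsum]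
  simp only [Complex.ofReal_sub, Complex.ofReal_one, apply_ite Complex.ofReal, Complex.ofReal_zero]
  exact h

lemma one_sub_term_pos {s : ℝ} (hs : 1 < s) (q : (Ideal (𝓞 K))⁰) (hq : (q : Ideal (𝓞 K)).IsPrime) :
    0 < 1 - term K s q := by
  have := term_le_half K hs.le q hq.ne_top
  linarith

/-- `∏ (1 - N(Q)^(-s))⁻¹ ≤ ζ(s)` over any finite set of primes. -/
lemma prod_inv_le_zetaSum {s : ℝ} (hs : 1 < s) (T : Finset (Ideal (𝓞 K))⁰)
    (hT : ∀ q ∈ T, (q : Ideal (𝓞 K)).IsPrime) :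
    ∏ q ∈ T, (1 - term K s q)⁻¹ ≤ zetaSum K s := by
  classical
  have h := real_factor hs T hT
  have hpos : 0 < ∏ q ∈ T, (1 - term K s q) :=
    Finset.prod_pos fun q hq ↦ one_sub_term_pos hs q (hT q hq)
  have h1 : (1 : ℝ) ≤ ∑' I : (Ideal (𝓞 K))⁰, if ∀ q ∈ T, ¬ (q ∣ I) then term K s I else 0 := by
    have := (summable_good hs (fun I ↦ ∀ q ∈ T, ¬ (q ∣ I))).le_tsum 1 (fun I _ ↦ by
      split_ifs
      · exact (term_pos K s I).le
      · exact le_rfl)
    refine le_trans ?_ (le_of_le_of_eq this (by congr; ext I; congr))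
    rw [if_pos, term_one]
    intro q hq hdvd
    have : (q : Ideal (𝓞 K)) = ⊤ := by
      have h2 : (q : Ideal (𝓞 K)) ∣ ((1 : (Ideal (𝓞 K))⁰) : Ideal (𝓞 K)) :=
        (nonZeroDivisors_dvd_iff_dvd_coe).mp hdvd
      rw [Submonoid.coe_one, Ideal.one_eq_top] at h2
      exact top_le_iff.mp (Ideal.le_of_dvd h2)
    exact (hT q hq).ne_top this
  rw [Finset.prod_inv_distrib, inv_le_iff_one_le_mul₀ hpos]
  rw [← h] at h1
  linarith [h1]

lemma one_le_inv_one_sub_term {s : ℝ} (hs : 1 < s) (q : (Ideal (𝓞 K))⁰)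
    (hq : (q : Ideal (𝓞 K)).IsPrime) : 1 ≤ (1 - term K s q)⁻¹ := by
  rw [one_le_inv₀ (one_sub_term_pos hs q hq)]
  linarith [term_pos K s q]

/-- primes of `K` with at least `m` primes of `N` of the same norm above them. -/
lemma pow_prod_le_zetaSum (N : Type*) [Field N] [NumberField N] [Algebra K N] (m : ℕ) {s : ℝ}
    (hs : 1 < s) (T : Finset (Ideal (𝓞 K))⁰) (hT : ∀ q ∈ T, (q : Ideal (𝓞 K)).IsPrime)
    (h : ∀ q ∈ T, ∃ S : Finset (Ideal (𝓞 N)), m ≤ S.card ∧ ∀ Q ∈ S, Q.IsPrime ∧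
        Q.comap (algebraMap (𝓞 K) (𝓞 N)) = (q : Ideal (𝓞 K)) ∧
        absNorm Q = absNorm (q : Ideal (𝓞 K))) :
    (∏ q ∈ T, (1 - term K s q)⁻¹) ^ m ≤ zetaSum N s := by
  classical
  choose! S hS using h
  let S' : (Ideal (𝓞 K))⁰ → Finset (Ideal (𝓞 N))⁰ :=
    fun q => (S q).subtype (· ∈ (Ideal (𝓞 N))⁰)
  have hmem : ∀ q ∈ T, ∀ Q ∈ S q, Q ∈ (Ideal (𝓞 N))⁰ := by
    intro q hq Q hQ
    rw [mem_nonZeroDivisors_iff_ne_zero]
    rintro rfl
    have h1 := ((hS q hq).2 _ hQ).2.2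
    rw [Ideal.zero_eq_bot, Ideal.absNorm_bot] at h1
    exact absNorm_ne_zero_of_nonZeroDivisors q h1.symm
  have hcard : ∀ q ∈ T, (S' q).card = (S q).card := by
    intro q hq
    rw [Finset.card_subtype, Finset.filter_true_of_mem (hmem q hq)]
  have hS' : ∀ q, ∀ Q ∈ S' q, (Q : Ideal (𝓞 N)) ∈ S q := by
    intro q Q hQ
    exact Finset.mem_subtype.mp hQ
  have hdisj : (T : Set (Ideal (𝓞 K))⁰).PairwiseDisjoint S' := by
    intro q hq q' hq' hne
    rw [Function.onFun, Finset.disjoint_left]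
    intro Q hQ hQ'
    apply hne
    ext1
    rw [← ((hS q hq).2 _ (hS' q Q hQ)).2.1, ← ((hS q' hq').2 _ (hS' q' Q hQ')).2.1]
  have hprime : ∀ Q ∈ T.biUnion S', (Q : Ideal (𝓞 N)).IsPrime := by
    intro Q hQ
    obtain ⟨q, hq, hQq⟩ := Finset.mem_biUnion.mp hQ
    exact ((hS q hq).2 _ (hS' q Q hQq)).1
  have key := prod_inv_le_zetaSum (K := N) hs (T.biUnion S') hprime
  rw [Finset.prod_biUnion hdisj] at key
  refine le_trans ?_ key
  rw [← Finset.prod_pow]
  apply Finset.prod_le_prod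
  · intro q hq
    exact pow_nonneg (le_trans zero_le_one (one_le_inv_one_sub_term hs q (hT q hq))) _
  · intro q hq
    have : ∀ Q ∈ S' q, (1 - term N s Q)⁻¹ = (1 - term K s q)⁻¹ := by
      intro Q hQ
      have h1 := ((hS q hq).2 _ (hS' q Q hQ)).2.2
      simp only [term, h1]
    rw [Finset.prod_congr rfl this, Finset.prod_const, hcard q hq]
    exact pow_le_pow_right₀ (one_le_inv_one_sub_term hs q (hT q hq)) (hS q hq).1

lemma finite_dvd (I : (Ideal (𝓞 K))⁰) : {q : (Ideal (𝓞 K))⁰ | q ∣ I}.Finite := by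
  refine (Ideal.finite_setOfPred_absNorm_le₀ (S := 𝓞 K) (absNorm (I : Ideal (𝓞 K)))).subset ?_
  intro q hq
  have h1 : (q : Ideal (𝓞 K)) ∣ (I : Ideal (𝓞 K)) := nonZeroDivisors_dvd_iff_dvd_coe.mp hq
  exact Nat.le_of_dvd (Nat.pos_of_ne_zero (absNorm_ne_zero_of_nonZeroDivisors I))
    (map_dvd absNorm h1)

/-- the tail estimate: for every `ε > 0` there is a finite set `T` of primes with `X ≠ 1` such that
the `T`-deprived `L`-sum and zeta-sum are `2ε`-close. -/
lemma exists_finset_close (X : ClassGroup (𝓞 K) →* ℂ) {s : ℝ} (hs : 1 < s) {ε : ℝ} (hε : 0 < ε) :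
    ∃ T : Finset (Ideal (𝓞 K))⁰,
      (∀ q ∈ T, (q : Ideal (𝓞 K)).IsPrime ∧ X (ClassGroup.mk0 q) ≠ 1) ∧
      (∏ q ∈ T, (1 - term K s q)) * zetaSum K s ≤
        (∏ q ∈ T, (1 + term K s q)) * ‖lSum K X s‖ + 2 * ε := by
  classical
  obtain ⟨F₀, hF₀⟩ := ((tendsto_tsum_compl_atTop_zero (term K s)).eventually
    (gt_mem_nhds hε)).exists
  have hfin : {q : (Ideal (𝓞 K))⁰ | ((q : Ideal (𝓞 K)).IsPrime ∧ X (ClassGroup.mk0 q) ≠ 1) ∧
      ∃ I ∈ F₀, q ∣ I}.Finite := by
    refine (Set.Finite.biUnion F₀.finite_toSet (fun I _ ↦ finite_dvd I)).subset ?_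
    rintro q ⟨_, I, hI, hq⟩
    exact Set.mem_biUnion hI hq
  refine ⟨hfin.toFinset, fun q hq ↦ ((hfin.mem_toFinset).mp hq).1, ?_⟩
  set T := hfin.toFinset with hTdef
  have hT : ∀ q ∈ T, (q : Ideal (𝓞 K)).IsPrime := fun q hq ↦ ((hfin.mem_toFinset).mp hq).1.1
  have hL := prod_one_sub_mul_tsum K (twistHom K X s) (summable_norm_twistHom X hs) T hT
  have hZ := real_factor hs T hT
  rw [hZ]
  set good : (Ideal (𝓞 K))⁰ → Prop := fun I ↦ ∀ q ∈ T, ¬ (q ∣ I) with hgood
  -- the two deprived sums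
  have hsZ : Summable fun I : (Ideal (𝓞 K))⁰ ↦ ((if good I then term K s I else 0 : ℝ) : ℂ) := by
    have := summable_good hs good
    exact_mod_cast (Complex.summable_ofReal.mpr this)
  have hsL : Summable fun I : (Ideal (𝓞 K))⁰ ↦ if good I then twistHom K X s I else 0 := by
    refine Summable.of_norm_bounded (summable_term K hs) (fun I ↦ ?_)
    split_ifs
    · rw [norm_twistHom]
    · simpa using (term_pos K s I).le
  -- pointwise bound of the difference
  have hpt : ∀ I : (Ideal (𝓞 K))⁰,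
      ‖((if good I then term K s I else 0 : ℝ) : ℂ) - (if good I then twistHom K X s I else 0)‖ ≤
        Set.indicator {x | x ∉ F₀} (fun I ↦ 2 * term K s I) I := by
    intro I
    by_cases hg : good I
    · by_cases hI : I ∈ F₀
      · have hX1 : X (ClassGroup.mk0 I) = 1 := by
          apply char_eq_one_of_forall_prime
          intro q hq hqI
          by_contra hne
          exact hg q ((hfin.mem_toFinset).mpr ⟨⟨hq, hne⟩, I, hI, hqI⟩) hqI
        simp [hg, hI, twistHom, hX1]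
      · have h1 : I ∈ {x : (Ideal (𝓞 K))⁰ | x ∉ F₀} := hI
        rw [Set.indicator_of_mem h1, if_pos hg, if_pos hg]
        calc ‖((term K s I : ℝ) : ℂ) - twistHom K X s I‖
            ≤ ‖((term K s I : ℝ) : ℂ)‖ + ‖twistHom K X s I‖ := norm_sub_le _ _
          _ = 2 * term K s I := by
              rw [norm_twistHom, Complex.norm_real, Real.norm_of_nonneg (term_pos K s I).le]; ring
    · rw [if_neg hg, if_neg hg]
      simp only [Complex.ofReal_zero, sub_zero, norm_zero]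
      exact Set.indicator_nonneg (fun I _ ↦ by have := term_pos K s I; positivity) I
  have hsI : Summable (Set.indicator {x : (Ideal (𝓞 K))⁰ | x ∉ F₀} (fun I ↦ 2 * term K s I)) :=
    ((summable_term K hs).mul_left 2).indicator _
  have htail : ∑' I, Set.indicator {x : (Ideal (𝓞 K))⁰ | x ∉ F₀} (fun I ↦ 2 * term K s I) I
      < 2 * ε := by
    rw [← tsum_subtype {x : (Ideal (𝓞 K))⁰ | x ∉ F₀} (fun I ↦ 2 * term K s I), tsum_mul_left]
    have : ∑' (x : {x : (Ideal (𝓞 K))⁰ | x ∉ F₀}), term K s x < ε := hF₀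
    linarith
  have hdiff : ‖((∑' I, (if good I then term K s I else 0) : ℝ) : ℂ) -
      ∑' I, (if good I then twistHom K X s I else 0)‖ ≤ 2 * ε := by
    rw [Complex.ofReal_tsum, ← hsZ.tsum_sub hsL]
    refine le_trans (norm_tsum_le_tsum_norm ?_) ?_
    · exact Summable.of_nonneg_of_le (fun _ ↦ norm_nonneg _) hpt hsI
    · refine le_trans (Summable.tsum_le_tsum hpt ?_ hsI) htail.le
      exact Summable.of_nonneg_of_le (fun _ ↦ norm_nonneg _) hpt hsI
  have hLnorm : ‖∑' I, (if good I then twistHom K X s I else 0)‖ ≤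
      (∏ q ∈ T, (1 + term K s q)) * ‖lSum K X s‖ := by
    have e : ∑' I, (if good I then twistHom K X s I else 0) =
        (∏ q ∈ T, (1 - twistHom K X s q)) * ∑' I, twistHom K X s I := by
      rw [hL]
    rw [e, norm_mul, norm_prod]
    have e2 : ∑' I, twistHom K X s I = lSum K X s := rfl
    rw [e2]
    apply mul_le_mul_of_nonneg_right _ (norm_nonneg _)
    apply Finset.prod_le_prod (fun _ _ ↦ norm_nonneg _)
    intro q _
    calc ‖1 - twistHom K X s q‖ ≤ ‖(1 : ℂ)‖ + ‖twistHom K X s q‖ := norm_sub_le _ _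
      _ = 1 + term K s q := by rw [norm_one, norm_twistHom]
  have hZnn : 0 ≤ ∑' I, (if good I then term K s I else 0) :=
    tsum_nonneg fun I ↦ by
      split_ifs
      · exact (term_pos K s I).le
      · exact le_rfl
  calc ∑' I, (if good I then term K s I else 0)
      = ‖((∑' I, (if good I then term K s I else 0) : ℝ) : ℂ)‖ := by
        rw [Complex.norm_real, Real.norm_of_nonneg hZnn]
    _ ≤ ‖∑' I, (if good I then twistHom K X s I else 0)‖ + ‖((∑' I, (if good I then term K s I else 0) : ℝ) : ℂ) -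
      ∑' I, (if good I then twistHom K X s I else 0)‖ := by
        have := norm_add_le (∑' I, (if good I then twistHom K X s I else 0))
          (((∑' I, (if good I then term K s I else 0) : ℝ) : ℂ) -
            ∑' I, (if good I then twistHom K X s I else 0))
        simpa using this
    _ ≤ _ := add_le_add hLnorm hdiff

variable (K) in
theorem key_inequality (N : Type*) [Field N] [NumberField N] [Algebra K N]
    (X : ClassGroup (𝓞 K) →* ℂ) (m : ℕ) (hm : 0 < m)
    (hsplit : ∀ q : (Ideal (𝓞 K))⁰, (q : Ideal (𝓞 K)).IsPrime →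
      (absNorm (q : Ideal (𝓞 K))).Prime → X (ClassGroup.mk0 q) ≠ 1 →
      ∃ S : Finset (Ideal (𝓞 N)), m ≤ S.card ∧ ∀ Q ∈ S, Q.IsPrime ∧
        Q.comap (algebraMap (𝓞 K) (𝓞 N)) = (q : Ideal (𝓞 K)) ∧
        absNorm Q = absNorm (q : Ideal (𝓞 K)))
    (B₂ : ℝ) (hB₂ : ∀ (T : Finset (Ideal (𝓞 K))⁰), (∀ q ∈ T, (q : Ideal (𝓞 K)).IsPrime ∧
      ¬ (absNorm (q : Ideal (𝓞 K))).Prime) → ∀ s : ℝ, 1 ≤ s →
      ∏ q ∈ T, (1 - term K s q)⁻¹ ≤ B₂)
    {s : ℝ} (hs : 1 < s) :
    zetaSum K s ≤ ‖lSum K X s‖ * B₂ ^ 2 * (zetaSum N s) ^ ((2 : ℝ) / m) := by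
  classical
  have hZN : 0 ≤ zetaSum N s := tsum_nonneg fun I ↦ (term_pos N s I).le
  set D : ℝ := B₂ * (zetaSum N s) ^ ((m : ℝ)⁻¹) with hD
  -- the Euler factors over the bad primes are bounded by `D`
  have hP : ∀ T : Finset (Ideal (𝓞 K))⁰,
      (∀ q ∈ T, (q : Ideal (𝓞 K)).IsPrime ∧ X (ClassGroup.mk0 q) ≠ 1) →
      ∏ q ∈ T, (1 - term K s q)⁻¹ ≤ D := by
    intro T hT
    set pr : (Ideal (𝓞 K))⁰ → Prop := fun q ↦ (absNorm (q : Ideal (𝓞 K))).Prime with hpr
    rw [← Finset.prod_filter_mul_prod_filter_not T pr, mul_comm]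
    have h2 : ∏ q ∈ T.filter (fun q ↦ ¬ pr q), (1 - term K s q)⁻¹ ≤ B₂ :=
      hB₂ _ (fun q hq ↦ ⟨(hT q (Finset.mem_filter.mp hq).1).1, (Finset.mem_filter.mp hq).2⟩) s hs.le
    have h1nn : 0 ≤ ∏ q ∈ T.filter pr, (1 - term K s q)⁻¹ :=
      Finset.prod_nonneg fun q hq ↦ le_trans zero_le_one
        (one_le_inv_one_sub_term hs q (hT q (Finset.mem_filter.mp hq).1).1)
    have h1 : ∏ q ∈ T.filter pr, (1 - term K s q)⁻¹ ≤ (zetaSum N s) ^ ((m : ℝ)⁻¹) := by
      have := pow_prod_le_zetaSum N m hs (T.filter pr)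
        (fun q hq ↦ (hT q (Finset.mem_filter.mp hq).1).1)
        (fun q hq ↦ hsplit q (hT q (Finset.mem_filter.mp hq).1).1 (Finset.mem_filter.mp hq).2
          (hT q (Finset.mem_filter.mp hq).1).2)
      calc _ = ((∏ q ∈ T.filter pr, (1 - term K s q)⁻¹) ^ m) ^
            ((m : ℝ)⁻¹) := (Real.pow_rpow_inv_natCast h1nn hm.ne').symm
        _ ≤ _ := Real.rpow_le_rpow (pow_nonneg h1nn _) this (by positivity)
    have h2nn : 0 ≤ ∏ q ∈ T.filter (fun q ↦ ¬ pr q), (1 - term K s q)⁻¹ :=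
      Finset.prod_nonneg fun q hq ↦ le_trans zero_le_one
        (one_le_inv_one_sub_term hs q (hT q (Finset.mem_filter.mp hq).1).1)
    exact mul_le_mul h2 h1 h1nn (le_trans h2nn h2)
  have hD1 : 1 ≤ D := by simpa using hP ∅ (by simp)
  have hD0 : 0 < D := lt_of_lt_of_le zero_lt_one hD1
  -- main estimate
  have main : ∀ ε : ℝ, 0 < ε → zetaSum K s ≤ (D * ‖lSum K X s‖ + 2 * ε) * D := by
    intro ε hε
    obtain ⟨T, hT, hle⟩ := exists_finset_close X hs hε
    have hTp : ∀ q ∈ T, (q : Ideal (𝓞 K)).IsPrime := fun q hq ↦ (hT q hq).1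
    set P := ∏ q ∈ T, (1 - term K s q)⁻¹ with hPdef
    have hPD : P ≤ D := hP T hT
    have hpos : 0 < ∏ q ∈ T, (1 - term K s q) :=
      Finset.prod_pos fun q hq ↦ one_sub_term_pos hs q (hTp q hq)
    have hPinv : P = (∏ q ∈ T, (1 - term K s q))⁻¹ := by rw [hPdef, Finset.prod_inv_distrib]
    have hP0 : 0 < P := by rw [hPinv]; exact inv_pos.mpr hpos
    have hplus : ∏ q ∈ T, (1 + term K s q) ≤ P := by
      apply Finset.prod_le_prod
      · intro q _
        have := term_pos K s q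
        positivity
      · intro q hq
        have h0 := one_sub_term_pos hs q (hTp q hq)
        rw [le_inv_comm₀ (by have := term_pos K s q; positivity) h0,
          inv_eq_one_div, le_div_iff₀ (by have := term_pos K s q; positivity)]
        nlinarith [term_pos K s q]
    have hz : zetaSum K s = ((∏ q ∈ T, (1 - term K s q)) * zetaSum K s) * P := by
      rw [hPinv]; field_simp
    rw [hz]
    have hn := norm_nonneg (lSum K X s)
    calc ((∏ q ∈ T, (1 - term K s q)) * zetaSum K s) * P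
        ≤ ((∏ q ∈ T, (1 + term K s q)) * ‖lSum K X s‖ + 2 * ε) * P :=
          mul_le_mul_of_nonneg_right hle hP0.le
      _ ≤ (D * ‖lSum K X s‖ + 2 * ε) * D := by
          apply mul_le_mul _ hPD hP0.le (by positivity)
          have := mul_le_mul_of_nonneg_right (le_trans hplus hPD) hn
          linarith
  have hfinal : zetaSum K s ≤ ‖lSum K X s‖ * D ^ 2 := by
    apply le_of_forall_pos_le_add
    intro ε hε
    have := main (ε / (2 * D)) (by positivity)
    calc zetaSum K s ≤ (D * ‖lSum K X s‖ + 2 * (ε / (2 * D))) * D := this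
      _ = ‖lSum K X s‖ * D ^ 2 + ε := by field_simp
  have hDsq : D ^ 2 = B₂ ^ 2 * (zetaSum N s) ^ ((2 : ℝ) / m) := by
    rw [hD, mul_pow, ← Real.rpow_natCast ((zetaSum N s) ^ ((m : ℝ)⁻¹)) 2, ← Real.rpow_mul hZN]
    congr 2
    push_cast
    field_simp
  rw [hDsq, ← mul_assoc] at hfinal
  exact hfinal

end Fermat.Agent.S14.Analytic
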