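import Fermat.Agent.S14.Analytic.Core
import Fermat.Agent.S14.ClassZeta.Main

/-!
# S14, analytic core: final statement

`analytic_core`: a subgroup `H` of the class group such that every degree one prime outside `H`
has at least `m > 2` degree one primes above it in an extension `N` is the whole class group.
Owner: helper14.
-/

set_option autoImplicit false

namespace Fermat.Agent.S14.Analytic

open NumberField Ideal
open scoped nonZeroDivisors

variable (K : Type*) [Field K] [NumberField K]

theorem lSum_bounded (X : ClassGroup (𝓞 K) →* ℂ) (hX : X ≠ 1) :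
    ∃ B : ℝ, ∀ s : ℝ, 1 < s → s ≤ 2 → ‖lSum K X s‖ ≤ B :=
  ClassZeta.classLSeries_bounded K X (sum_char_eq_zero X hX)

/-- THE ANALYTIC CORE -/
theorem analytic_core (N : Type*) [Field N] [NumberField N] [Algebra K N]
    (H : Subgroup (ClassGroup (𝓞 K))) (m : ℕ) (hm : 2 < m)
    (hsplit : ∀ q : (Ideal (𝓞 K))⁰, (q : Ideal (𝓞 K)).IsPrime →
      (absNorm (q : Ideal (𝓞 K))).Prime → ClassGroup.mk0 q ∉ H →
      ∃ S : Finset (Ideal (𝓞 N)), m ≤ S.card ∧ ∀ Q ∈ S, Q.IsPrime ∧
        Q.comap (algebraMap (𝓞 K) (𝓞 N)) = (q : Ideal (𝓞 K)) ∧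
        absNorm Q = absNorm (q : Ideal (𝓞 K))) :
    H = ⊤ :=
  analytic_core_of_lSum_bounded K (lSum_bounded K) N H m hm hsplit

end Fermat.Agent.S14.Analytic
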