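import Fermat.Agent.S14.Analytic.Key
import Fermat.Agent.S14.Analytic.NonPrimeNorm

/-!
# S14 analytic core, A5: the final statement `analytic_core`
-/

set_option autoImplicit false

namespace Fermat.Agent.S14.Analytic

open NumberField Ideal Filter Topology
open scoped nonZeroDivisors

variable (K : Type*) [Field K] [NumberField K]

/-- a proper subgroup of a finite abelian group is killed by a nontrivial complex character. -/
lemma exists_char {G : Type*} [CommGroup G] [Finite G] (H : Subgroup G) (hH : H ≠ ⊤) :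
    ∃ X : G →* ℂ, X ≠ 1 ∧ ∀ h ∈ H, X h = 1 := by
  obtain ⟨c, hc⟩ : ∃ c : G, c ∉ H := by
    by_contra hcon
    push Not at hcon
    exact hH (eq_top_iff.mpr fun x _ ↦ hcon x)
  have hne : (QuotientGroup.mk' H c) ≠ 1 := by
    intro h
    exact hc ((QuotientGroup.eq_one_iff c).mp h)
  have : NeZero (Monoid.exponent (G ⧸ H)) := ⟨Monoid.exponent_ne_zero_of_finite⟩
  obtain ⟨φ, hφ⟩ := CommGroup.exists_apply_ne_one_of_hasEnoughRootsOfUnity (G ⧸ H) ℂ hne
  refine ⟨(Units.coeHom ℂ).comp (φ.comp (QuotientGroup.mk' H)), ?_, ?_⟩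
  · intro h
    apply hφ
    have := DFunLike.congr_fun h c
    simpa using this
  · intro h hh
    have : QuotientGroup.mk' H h = 1 := (QuotientGroup.eq_one_iff h).mpr hh
    simp only [MonoidHom.coe_comp, Function.comp_apply, this, map_one]

lemma finsum_char_eq_zero {G : Type*} [CommGroup G] [Finite G] (X : G →* ℂ) (hX : X ≠ 1) :
    ∑ᶠ C, X C = 0 := by
  obtain ⟨c, hc⟩ : ∃ c, X c ≠ 1 := by
    by_contra hcon
    push Not at hcon
    exact hX (MonoidHom.ext hcon)
  have h1 : X c * ∑ᶠ C, X C = ∑ᶠ C, X C := by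
    rw [mul_finsum]
    simp_rw [← map_mul]
    exact finsum_comp_equiv (Equiv.mulLeft c) (f := fun C ↦ X C)
  have h2 : (X c - 1) * ∑ᶠ C, X C = 0 := by rw [sub_mul, h1, one_mul, sub_self]
  exact (mul_eq_zero.mp h2).resolve_left (sub_ne_zero.mpr hc)

lemma sum_char_eq_zero {G : Type*} [CommGroup G] [Fintype G] (X : G →* ℂ) (hX : X ≠ 1) :
    ∑ C, X C = 0 := by
  rw [← finsum_eq_sum_of_fintype]
  exact finsum_char_eq_zero X hX

/-- THE ANALYTIC CORE, assuming that the class group `L`-series are bounded on `(1,2]` (C3). -/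
theorem analytic_core_of_lSum_bounded
    (lSum_bounded : ∀ X : ClassGroup (𝓞 K) →* ℂ, X ≠ 1 →
      ∃ B : ℝ, ∀ s : ℝ, 1 < s → s ≤ 2 → ‖lSum K X s‖ ≤ B)
    (N : Type*) [Field N] [NumberField N] [Algebra K N]
    (H : Subgroup (ClassGroup (𝓞 K))) (m : ℕ) (hm : 2 < m)
    (hsplit : ∀ q : (Ideal (𝓞 K))⁰, (q : Ideal (𝓞 K)).IsPrime →
      (absNorm (q : Ideal (𝓞 K))).Prime → ClassGroup.mk0 q ∉ H →
      ∃ S : Finset (Ideal (𝓞 N)), m ≤ S.card ∧ ∀ Q ∈ S, Q.IsPrime ∧
        Q.comap (algebraMap (𝓞 K) (𝓞 N)) = (q : Ideal (𝓞 K)) ∧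
        absNorm Q = absNorm (q : Ideal (𝓞 K))) :
    H = ⊤ := by
  by_contra hH
  obtain ⟨X, hX1, hXH⟩ := exists_char H hH
  obtain ⟨B, hB⟩ := lSum_bounded X hX1
  obtain ⟨B₂, hB₂1, hB₂⟩ := prod_nonprime_norm_bounded K
  have hkey : ∀ s : ℝ, 1 < s → s ≤ 2 →
      zetaSum K s ≤ B * B₂ ^ 2 * (zetaSum N s) ^ ((2 : ℝ) / m) := by
    intro s hs hs2
    have h1 := key_inequality K N X m (by omega)
      (fun q hq hqp hXq ↦ hsplit q hq hqp (fun hmem ↦ hXq (hXH _ hmem))) B₂ hB₂ hs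
    refine le_trans h1 ?_
    have hZN : 0 ≤ zetaSum N s := tsum_nonneg fun I ↦ (term_pos N s I).le
    have := hB s hs hs2
    gcongr
  set θ : ℝ := (2 : ℝ) / m with hθ
  have hm' : (2 : ℝ) < m := by exact_mod_cast hm
  have hθ0 : 0 < θ := by positivity
  have hθ1 : θ < 1 := by rw [hθ, div_lt_one (by linarith)]; exact hm'
  set C : ℝ := B * B₂ ^ 2 with hC
  have hlim : Tendsto (fun s : ℝ ↦ C * (s - 1) ^ (1 - θ) * ((s - 1) * zetaSum N s) ^ θ) (𝓝[>] 1)
      (𝓝 (C * (0 : ℝ) ^ (1 - θ) * (dedekindZeta_residue N) ^ θ)) := by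
    have h0 : Tendsto (fun s : ℝ ↦ s - 1) (𝓝[>] 1) (𝓝 0) := by
      have : Tendsto (fun s : ℝ ↦ s - 1) (𝓝 1) (𝓝 (1 - 1)) :=
        (continuous_id.sub continuous_const).tendsto 1
      rw [sub_self] at this
      exact this.mono_left nhdsWithin_le_nhds
    exact (tendsto_const_nhds.mul (h0.rpow_const (Or.inr (by linarith)))).mul
      ((tendsto_zetaSum N).rpow_const (Or.inr hθ0.le))
  rw [Real.zero_rpow (by linarith), mul_zero, zero_mul] at hlim
  have hle : dedekindZeta_residue K ≤ 0 := by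
    refine le_of_tendsto_of_tendsto (tendsto_zetaSum K) hlim ?_
    filter_upwards [Ioc_mem_nhdsGT (show (1 : ℝ) < 2 by norm_num)] with s hs
    have hs1 : 0 < s - 1 := by linarith [hs.1]
    have hZN : 0 ≤ zetaSum N s := tsum_nonneg fun I ↦ (term_pos N s I).le
    calc (s - 1) * zetaSum K s ≤ (s - 1) * (C * (zetaSum N s) ^ θ) :=
          mul_le_mul_of_nonneg_left (hkey s hs.1 hs.2) hs1.le
      _ = C * (s - 1) ^ (1 - θ) * ((s - 1) * zetaSum N s) ^ θ := by
          rw [Real.mul_rpow hs1.le hZN]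
          have : (s - 1) = (s - 1) ^ (1 - θ) * (s - 1) ^ θ := by
            rw [← Real.rpow_add hs1]; simp
          calc (s - 1) * (C * zetaSum N s ^ θ)
              = ((s - 1) ^ (1 - θ) * (s - 1) ^ θ) * (C * zetaSum N s ^ θ) := by rw [← this]
            _ = _ := by ring
  exact absurd (dedekindZeta_residue_pos K) (not_lt.mpr hle)

end Fermat.Agent.S14.Analytic
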