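import Mathlib

/-!
# S14 analytic core, W4: comparison of a sum over a group with a sum over a finite index subgroup
-/

set_option autoImplicit false

namespace Fermat.Agent.S14.Analytic

/-- `(G ⧸ G') × G' ≃ G`, `(q, g') ↦ q.out + g'`. -/
noncomputable def cosetEquiv {G : Type*} [AddCommGroup G] (G' : AddSubgroup G) :
    (G ⧸ G') × G' ≃ G where
  toFun x := x.1.out + x.2
  invFun g := ((g : G ⧸ G'), ⟨-((g : G ⧸ G')).out + g, by
    rw [← QuotientAddGroup.eq, QuotientAddGroup.out_eq']⟩)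
  left_inv x := by
    obtain ⟨q, g'⟩ := x
    have h1 : (((q.out + (g' : G) : G)) : G ⧸ G') = q := by
      rw [QuotientAddGroup.mk_add_of_mem _ g'.2, QuotientAddGroup.out_eq']
    ext
    · exact h1
    · simp only [h1]
      abel
  right_inv g := by simp

theorem coset_comparison {E G : Type*} [NormedAddCommGroup E] [AddCommGroup G] (ι : G →+ E)
    (d : ℝ) (hsum : Summable (fun g : G ↦ ‖ι g‖ ^ (-d)))
    (hfin : ∀ r : ℝ, {g : G | ‖ι g‖ ≤ r}.Finite)
    (G' : AddSubgroup G) [G'.FiniteIndex] (A ρ : ℝ) (hA : 0 ≤ A) (hρ : 0 < ρ) :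
    ∃ B : ℝ, ∀ F : E → ℝ, (∀ g : G, |F (ι g)| ≤ 1) →
      (∀ x h : E, 1 ≤ ‖x‖ → ‖h‖ ≤ ρ * ‖x‖ → |F (x + h) - F x| ≤ A * ‖h‖ * ‖x‖ ^ (-d)) →
      Summable (fun g : G ↦ F (ι g)) →
      |∑' g : G, F (ι g) - G'.index * ∑' g : G', F (ι (g : G))| ≤ B := by
  classical
  have : Fintype (G ⧸ G') := AddSubgroup.fintypeQuotientOfFiniteIndex
  -- the majorant attached to a shift `h`
  let S : E → Set G := fun h ↦ {g : G | ‖ι g‖ ≤ max 1 (‖h‖ / ρ)}
  let b : E → G → ℝ := fun h g ↦ A * ‖h‖ * ‖ι g‖ ^ (-d) + (S h).indicator (fun _ ↦ (2 : ℝ)) g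
  have hbsum : ∀ h, Summable (b h) := by
    intro h
    refine (hsum.mul_left (A * ‖h‖)).add ?_
    exact summable_of_hasFiniteSupport ((hfin _).subset (fun g hg ↦ by
      by_contra hcon
      exact hg (Set.indicator_of_notMem hcon _)))
  have hbnn : ∀ h g, 0 ≤ b h g := by
    intro h g
    have h1 : 0 ≤ A * ‖h‖ * ‖ι g‖ ^ (-d) := by positivity
    have h2 : 0 ≤ (S h).indicator (fun _ ↦ (2 : ℝ)) g :=
      Set.indicator_nonneg (fun _ _ ↦ by norm_num) g
    exact add_nonneg h1 h2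
  refine ⟨∑ q : G ⧸ G', ∑' g : G, b (ι q.out) g, ?_⟩
  intro F hF1 hFL hFs
  -- decompose the sum over `G`
  have hs2 : Summable (fun x : (G ⧸ G') × G' ↦ F (ι (cosetEquiv G' x))) :=
    (cosetEquiv G').summable_iff.mpr hFs
  have e1 : ∑' g : G, F (ι g) = ∑ q : G ⧸ G', ∑' g' : G', F (ι (q.out + (g' : G))) := by
    rw [← (cosetEquiv G').tsum_eq (fun g ↦ F (ι g)), hs2.tsum_prod, tsum_fintype]
    rfl
  have hsG' : Summable (fun g' : G' ↦ F (ι (g' : G))) := hFs.comp_injective Subtype.val_injective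
  have hsq : ∀ q : G ⧸ G', Summable (fun g' : G' ↦ F (ι (q.out + (g' : G)))) := by
    intro q
    exact hFs.comp_injective (i := fun g' : G' ↦ q.out + (g' : G))
      (fun a b hab ↦ Subtype.val_injective (add_left_cancel hab))
  have e2 : (G'.index : ℝ) * ∑' g : G', F (ι (g : G)) =
      ∑ _q : G ⧸ G', ∑' g' : G', F (ι (g' : G)) := by
    rw [Finset.sum_const, Finset.card_univ, nsmul_eq_mul, AddSubgroup.index, Nat.card_eq_fintype_card]
  rw [e1, e2, ← Finset.sum_sub_distrib]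
  refine le_trans (Finset.abs_sum_le_sum_abs _ _) (Finset.sum_le_sum fun q _ ↦ ?_)
  rw [← (hsq q).tsum_sub hsG']
  set h := ι q.out with hh
  -- pointwise bound
  have hpt : ∀ g' : G', |F (ι (q.out + (g' : G))) - F (ι (g' : G))| ≤ b h (g' : G) := by
    intro g'
    by_cases hg : (g' : G) ∈ S h
    · have h1 : |F (ι (q.out + (g' : G))) - F (ι (g' : G))| ≤ 2 := by
        have := abs_sub (F (ι (q.out + (g' : G)))) (F (ι (g' : G)))
        linarith [hF1 (q.out + (g' : G)), hF1 (g' : G)]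
      have h2 : 0 ≤ A * ‖h‖ * ‖ι (g' : G)‖ ^ (-d) := by positivity
      simp only [b, Set.indicator_of_mem hg]
      linarith
    · have hg' : max 1 (‖h‖ / ρ) < ‖ι (g' : G)‖ := not_le.mp hg
      have h1 : 1 ≤ ‖ι (g' : G)‖ := (lt_of_le_of_lt (le_max_left _ _) hg').le
      have h2 : ‖h‖ ≤ ρ * ‖ι (g' : G)‖ := by
        have := (lt_of_le_of_lt (le_max_right _ _) hg').le
        rw [div_le_iff₀ hρ] at this
        linarith
      have := hFL (ι (g' : G)) h h1 h2
      simp only [b, Set.indicator_of_notMem hg, add_zero]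
      rwa [map_add, add_comm]
  have hsb : Summable (fun g' : G' ↦ b h (g' : G)) :=
    (hbsum h).comp_injective Subtype.val_injective
  have hsabs : Summable (fun g' : G' ↦ |F (ι (q.out + (g' : G))) - F (ι (g' : G))|) :=
    Summable.of_nonneg_of_le (fun _ ↦ abs_nonneg _) hpt hsb
  calc |∑' g' : G', (F (ι (q.out + (g' : G))) - F (ι (g' : G)))|
      ≤ ∑' g' : G', |F (ι (q.out + (g' : G))) - F (ι (g' : G))| := by
        have := norm_tsum_le_tsum_norm
          (f := fun g' : G' ↦ F (ι (q.out + (g' : G))) - F (ι (g' : G))) hsabs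
        simpa only [Real.norm_eq_abs] using this
    _ ≤ ∑' g' : G', b h (g' : G) := hsabs.tsum_le_tsum hpt hsb
    _ ≤ ∑' g : G, b h g :=
        tsum_comp_le_tsum_of_inj (hbsum h) (hbnn h) Subtype.val_injective

end Fermat.Agent.S14.Analytic
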