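import Fermat.Agent.S14.Analytic.Defs

set_option autoImplicit false

/-!
# S14, analytic core, node W2: a Lipschitz estimate for the smoothed norm kernel

`F w s x = w (logMap x) * (norm x) ^ (-s)` on the mixed space.
-/

namespace Fermat.Agent.S14.Analytic

open NumberField NumberField.mixedEmbedding NumberField.InfinitePlace NumberField.Units
  NumberField.Units.dirichletUnitTheorem Module

open scoped Classical

variable {K : Type*} [Field K] [NumberField K]

theorem normAtPlace_le_norm (w : InfinitePlace K) (x : mixedSpace K) :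
    normAtPlace w x ≤ ‖x‖ := by
  classical
  rw [norm_eq_sup'_normAtPlace]
  exact Finset.le_sup' (fun w ↦ normAtPlace w x) (Finset.mem_univ w)

theorem exists_normAtPlace_eq_norm (x : mixedSpace K) :
    ∃ w : InfinitePlace K, normAtPlace w x = ‖x‖ := by
  classical
  rw [norm_eq_sup'_normAtPlace]
  obtain ⟨w, -, hw⟩ := Finset.exists_mem_eq_sup' Finset.univ_nonempty
    (fun w : InfinitePlace K ↦ normAtPlace w x)
  exact ⟨w, hw.symm⟩

theorem abs_normAtPlace_sub_le (w : InfinitePlace K) (x h : mixedSpace K) :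
    |normAtPlace w (x + h) - normAtPlace w x| ≤ ‖h‖ := by
  have h1 := normAtPlace_add_le w x h
  have h2 := normAtPlace_add_le w (x + h) (-h)
  rw [normAtPlace_neg, add_neg_cancel_right] at h2
  have h3 := normAtPlace_le_norm w h
  rw [abs_le]
  constructor <;> linarith

theorem log_norm_eq_sum {x : mixedSpace K} (hx : mixedEmbedding.norm x ≠ 0) :
    Real.log (mixedEmbedding.norm x) = ∑ w, (mult w : ℝ) * Real.log (normAtPlace w x) := by
  rw [mixedEmbedding.norm_apply, Real.log_prod]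
  · simp [Real.log_pow]
  · intro w _
    exact pow_ne_zero _ (mixedEmbedding.norm_ne_zero_iff.mp hx w)

theorem pow_le_norm_of_forall_le {x : mixedSpace K} {t : ℝ} (ht : 0 ≤ t)
    (h : ∀ w, t ≤ normAtPlace w x) : t ^ finrank ℚ K ≤ mixedEmbedding.norm x := by
  rw [mixedEmbedding.norm_apply, ← sum_mult_eq, ← Finset.prod_pow_eq_pow_sum]
  exact Finset.prod_le_prod (fun _ _ ↦ pow_nonneg ht _) fun w _ ↦ pow_le_pow_left₀ ht (h w) _

theorem norm_le_norm_pow (x : mixedSpace K) :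
    mixedEmbedding.norm x ≤ ‖x‖ ^ finrank ℚ K := by
  rw [mixedEmbedding.norm_apply, ← sum_mult_eq, ← Finset.prod_pow_eq_pow_sum]
  exact Finset.prod_le_prod (fun _ _ ↦ pow_nonneg (normAtPlace_nonneg _ _) _)
    fun w _ ↦ pow_le_pow_left₀ (normAtPlace_nonneg _ _) (normAtPlace_le_norm w x) _


/-- the deviation of `log |x|_w` from the mean. -/
theorem abs_log_sub_le {x : mixedSpace K} (hx : mixedEmbedding.norm x ≠ 0) {B : ℝ}
    (hB : ‖logMap x‖ ≤ B) (w : InfinitePlace K) :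
    |Real.log (normAtPlace w x) - Real.log (mixedEmbedding.norm x) * (finrank ℚ K : ℝ)⁻¹| ≤
      (Fintype.card {w : InfinitePlace K // w ≠ w₀} + 1) * B := by
  have hB0 : 0 ≤ B := (norm_nonneg _).trans hB
  set d : InfinitePlace K → ℝ := fun w ↦
    Real.log (normAtPlace w x) - Real.log (mixedEmbedding.norm x) * (finrank ℚ K : ℝ)⁻¹ with hd
  have hmult : ∀ w : InfinitePlace K, (1 : ℝ) ≤ mult w := fun w ↦ by
    exact_mod_cast Nat.one_le_iff_ne_zero.mpr mult_ne_zero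
  have h1 : ∀ w : {w : InfinitePlace K // w ≠ w₀}, |(mult w.1 : ℝ) * d w.1| ≤ B := fun w ↦ by
    have := norm_le_pi_norm (logMap x) w
    rw [logMap_apply, Real.norm_eq_abs] at this
    exact this.trans hB
  have hle : ∀ w : InfinitePlace K, |d w| ≤ |(mult w : ℝ) * d w| := fun w ↦ by
    rw [abs_mul, abs_of_nonneg (by linarith [hmult w] : (0 : ℝ) ≤ mult w)]
    nlinarith [abs_nonneg (d w), hmult w]
  have hn : (finrank ℚ K : ℝ) ≠ 0 := Nat.cast_ne_zero.mpr finrank_pos.ne'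
  have hsum : ∑ w, (mult w : ℝ) * d w = 0 := by
    simp only [hd, mul_sub, Finset.sum_sub_distrib]
    rw [← log_norm_eq_sum hx, ← Finset.sum_mul, ← Nat.cast_sum, sum_mult_eq]
    field_simp
    ring
  have hcard : (0 : ℝ) ≤ Fintype.card {w : InfinitePlace K // w ≠ w₀} := Nat.cast_nonneg _
  by_cases hw : w = w₀
  · rw [Fintype.sum_eq_add_sum_subtype_ne _ w₀] at hsum
    have h2 : |(mult (w₀ : InfinitePlace K) : ℝ) * d w₀| ≤
        Fintype.card {w : InfinitePlace K // w ≠ w₀} * B := by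
      have : (mult (w₀ : InfinitePlace K) : ℝ) * d w₀ =
          - ∑ w : {w : InfinitePlace K // w ≠ w₀}, (mult w.1 : ℝ) * d w.1 := by linarith
      rw [this, abs_neg]
      refine (Finset.abs_sum_le_sum_abs _ _).trans ?_
      refine (Finset.sum_le_sum fun w _ ↦ h1 w).trans ?_
      simp
    subst hw
    calc |d w₀| ≤ _ := hle w₀
      _ ≤ _ := h2
      _ ≤ _ := by nlinarith
  · calc |d w| ≤ _ := hle w
      _ ≤ B := h1 ⟨w, hw⟩
      _ ≤ _ := by nlinarith

theorem exists_cone_const (B : ℝ) : ∃ c : ℝ, 0 < c ∧ c ≤ 1 ∧ ∀ x : mixedSpace K,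
    mixedEmbedding.norm x ≠ 0 → ‖logMap x‖ ≤ B → ∀ w, c * ‖x‖ ≤ normAtPlace w x := by
  set D : ℝ := (Fintype.card {w : InfinitePlace K // w ≠ w₀} + 1) * |B| with hD
  have hD0 : 0 ≤ D := by positivity
  refine ⟨Real.exp (-(2 * D)), Real.exp_pos _, Real.exp_le_one_iff.mpr (by linarith), ?_⟩
  intro x hx hB w
  obtain ⟨w₁, hw₁⟩ := exists_normAtPlace_eq_norm x
  have hpos : ∀ w, 0 < normAtPlace w x := fun w ↦
    lt_of_le_of_ne (normAtPlace_nonneg _ _) (mixedEmbedding.norm_ne_zero_iff.mp hx w).symm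
  have h1 := abs_log_sub_le hx (hB.trans (le_abs_self B)) w
  have h2 := abs_log_sub_le hx (hB.trans (le_abs_self B)) w₁
  rw [abs_le] at h1 h2
  rw [← hw₁, ← Real.exp_log (hpos w), ← Real.exp_log (hpos w₁), ← Real.exp_add]
  apply Real.exp_le_exp.mpr
  linarith [h1.1, h2.2]


theorem abs_log_sub_log_le {a b m : ℝ} (hm : 0 < m) (ha : m ≤ a) (hb : m ≤ b) :
    |Real.log b - Real.log a| ≤ |b - a| / m := by
  have key : ∀ u v : ℝ, m ≤ u → u ≤ v → Real.log v - Real.log u ≤ (v - u) / m := by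
    intro u v hu huv
    have hu0 : 0 < u := hm.trans_le hu
    have hv0 : 0 < v := hu0.trans_le huv
    rw [← Real.log_div hv0.ne' hu0.ne']
    have h1 := Real.log_le_sub_one_of_pos (div_pos hv0 hu0)
    have h2 : v / u - 1 = (v - u) / u := by field_simp
    rw [h2] at h1
    exact h1.trans (div_le_div_of_nonneg_left (by linarith) hm hu)
  rcases le_total a b with h | h
  · rw [abs_of_nonneg (sub_nonneg.mpr (Real.log_le_log (hm.trans_le ha) h)),
      abs_of_nonneg (sub_nonneg.mpr h)]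
    exact key a b ha h
  · rw [abs_sub_comm, abs_sub_comm b a,
      abs_of_nonneg (sub_nonneg.mpr (Real.log_le_log (hm.trans_le hb) h)),
      abs_of_nonneg (sub_nonneg.mpr h)]
    exact key b a hb h

theorem abs_exp_sub_exp_le {u v E : ℝ} (hu : Real.exp u ≤ E) (hv : Real.exp v ≤ E) :
    |Real.exp u - Real.exp v| ≤ |u - v| * E := by
  have key : ∀ a b : ℝ, a ≤ b → Real.exp b ≤ E → Real.exp b - Real.exp a ≤ (b - a) * E := by
    intro a b hab hb
    have h1 : 1 - (b - a) ≤ Real.exp (a - b) := by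
      have := Real.add_one_le_exp (a - b); linarith
    have h2 : Real.exp a = Real.exp b * Real.exp (a - b) := by
      rw [← Real.exp_add]; congr 1; ring
    have h3 : Real.exp b - Real.exp a ≤ (b - a) * Real.exp b := by
      rw [h2]; nlinarith [Real.exp_pos b]
    exact h3.trans (mul_le_mul_of_nonneg_left hb (by linarith))
  rcases le_total u v with h | h
  · rw [abs_sub_comm, abs_sub_comm u v, abs_of_nonneg (sub_nonneg.mpr (Real.exp_le_exp.mpr h)),
      abs_of_nonneg (sub_nonneg.mpr h)]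
    exact key u v h hv
  · rw [abs_of_nonneg (sub_nonneg.mpr (Real.exp_le_exp.mpr h)), abs_of_nonneg (sub_nonneg.mpr h)]
    exact key v u h hu

/-- comparison of `logMap`, `log norm` at two points whose coordinates are all `≥ m`. -/
theorem log_compare {x y : mixedSpace K} {m δ : ℝ} (hm : 0 < m)
    (hx : ∀ w, m ≤ normAtPlace w x) (hy : ∀ w, m ≤ normAtPlace w y)
    (hδ : ∀ w, |normAtPlace w y - normAtPlace w x| / m ≤ δ) :
    |Real.log (mixedEmbedding.norm y) - Real.log (mixedEmbedding.norm x)| ≤ finrank ℚ K * δ ∧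
    ‖logMap y - logMap x‖ ≤ 4 * δ := by
  have hx0 : mixedEmbedding.norm x ≠ 0 :=
    mixedEmbedding.norm_ne_zero_iff.mpr fun w ↦ (hm.trans_le (hx w)).ne'
  have hy0 : mixedEmbedding.norm y ≠ 0 :=
    mixedEmbedding.norm_ne_zero_iff.mpr fun w ↦ (hm.trans_le (hy w)).ne'
  have hl : ∀ w, |Real.log (normAtPlace w y) - Real.log (normAtPlace w x)| ≤ δ := fun w ↦
    (abs_log_sub_log_le hm (hx w) (hy w)).trans (hδ w)
  have hδ0 : 0 ≤ δ := (abs_nonneg _).trans (hl w₀)
  have hn : (0 : ℝ) < finrank ℚ K := Nat.cast_pos.mpr finrank_pos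
  have h1 : |Real.log (mixedEmbedding.norm y) - Real.log (mixedEmbedding.norm x)| ≤
      finrank ℚ K * δ := by
    rw [log_norm_eq_sum hx0, log_norm_eq_sum hy0, ← Finset.sum_sub_distrib]
    refine (Finset.abs_sum_le_sum_abs _ _).trans ?_
    rw [← sum_mult_eq, Nat.cast_sum, Finset.sum_mul]
    refine Finset.sum_le_sum fun w _ ↦ ?_
    rw [← mul_sub, abs_mul, abs_of_nonneg (Nat.cast_nonneg _)]
    exact mul_le_mul_of_nonneg_left (hl w) (Nat.cast_nonneg _)
  refine ⟨h1, ?_⟩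
  rw [pi_norm_le_iff_of_nonneg (by linarith)]
  intro w
  rw [Pi.sub_apply, logMap_apply, logMap_apply, ← mul_sub, Real.norm_eq_abs, abs_mul,
    abs_of_nonneg (Nat.cast_nonneg _)]
  have hm2 : (mult w.1 : ℝ) ≤ 2 := by
    have : mult w.1 ≤ 2 := by unfold mult; split_ifs <;> norm_num
    exact_mod_cast this
  have h2 : |Real.log (normAtPlace w.1 y) - Real.log (mixedEmbedding.norm y) * (finrank ℚ K : ℝ)⁻¹
      - (Real.log (normAtPlace w.1 x) - Real.log (mixedEmbedding.norm x) * (finrank ℚ K : ℝ)⁻¹)|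
      ≤ 2 * δ := by
    have e : Real.log (normAtPlace w.1 y) - Real.log (mixedEmbedding.norm y) * (finrank ℚ K : ℝ)⁻¹
      - (Real.log (normAtPlace w.1 x) - Real.log (mixedEmbedding.norm x) * (finrank ℚ K : ℝ)⁻¹) =
      (Real.log (normAtPlace w.1 y) - Real.log (normAtPlace w.1 x)) -
      (Real.log (mixedEmbedding.norm y) - Real.log (mixedEmbedding.norm x)) *
        (finrank ℚ K : ℝ)⁻¹ := by ring
    rw [e]
    refine (abs_sub _ _).trans ?_
    have h3 : |(Real.log (mixedEmbedding.norm y) - Real.log (mixedEmbedding.norm x)) *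
        (finrank ℚ K : ℝ)⁻¹| ≤ δ := by
      rw [abs_mul, abs_of_nonneg (inv_nonneg.mpr hn.le), ← div_eq_mul_inv, div_le_iff₀ hn]
      linarith
    linarith [hl w.1]
  calc (mult w.1 : ℝ) * _ ≤ 2 * (2 * δ) :=
        mul_le_mul hm2 h2 (abs_nonneg _) (by norm_num)
    _ = 4 * δ := by ring


/-- the basic two point estimate, when all coordinates of both points are `≥ m`. -/
theorem F_sub_le (w : logSpace K → ℝ) (Lip : ℝ) (hw0 : ∀ y, 0 ≤ w y) (hw1 : ∀ y, w y ≤ 1)
    (hLip : ∀ y y', |w y - w y'| ≤ Lip * ‖y - y'‖) {s : ℝ} (hs0 : 0 ≤ s) (hs : s ≤ 2)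
    {x y : mixedSpace K} {m : ℝ} (hm : 0 < m)
    (hx : ∀ v, m ≤ normAtPlace v x) (hy : ∀ v, m ≤ normAtPlace v y) :
    |F w s y - F w s x| ≤
      (4 * |Lip| + 2 * finrank ℚ K) * (‖y - x‖ / m) * (m ^ finrank ℚ K) ^ (-s) := by
  set n := finrank ℚ K with hn
  set δ : ℝ := ‖y - x‖ / m with hδ
  have hδ0 : 0 ≤ δ := by positivity
  have hδ' : ∀ v, |normAtPlace v y - normAtPlace v x| / m ≤ δ := fun v ↦ by
    have := abs_normAtPlace_sub_le v x (y - x)
    rw [add_sub_cancel] at this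
    exact div_le_div_of_nonneg_right this hm.le
  obtain ⟨h1, h2⟩ := log_compare hm hx hy hδ'
  set T : ℝ := m ^ n with hT
  have hT0 : 0 < T := pow_pos hm n
  have hNx : T ≤ mixedEmbedding.norm x := pow_le_norm_of_forall_le hm.le hx
  have hNy : T ≤ mixedEmbedding.norm y := pow_le_norm_of_forall_le hm.le hy
  have hNx0 : 0 < mixedEmbedding.norm x := hT0.trans_le hNx
  have hNy0 : 0 < mixedEmbedding.norm y := hT0.trans_le hNy
  have hpx : mixedEmbedding.norm x ^ (-s) ≤ T ^ (-s) :=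
    Real.rpow_le_rpow_of_nonpos hT0 hNx (by linarith)
  have hpy : mixedEmbedding.norm y ^ (-s) ≤ T ^ (-s) :=
    Real.rpow_le_rpow_of_nonpos hT0 hNy (by linarith)
  have hTs : 0 ≤ T ^ (-s) := (Real.rpow_pos_of_pos hT0 _).le
  have hdiff : |mixedEmbedding.norm y ^ (-s) - mixedEmbedding.norm x ^ (-s)| ≤
      2 * (n * δ) * T ^ (-s) := by
    have ex : mixedEmbedding.norm x ^ (-s) = Real.exp (Real.log (mixedEmbedding.norm x) * (-s)) :=
      Real.rpow_def_of_pos hNx0 _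
    have ey : mixedEmbedding.norm y ^ (-s) = Real.exp (Real.log (mixedEmbedding.norm y) * (-s)) :=
      Real.rpow_def_of_pos hNy0 _
    have := abs_exp_sub_exp_le (ey ▸ hpy) (ex ▸ hpx)
    rw [← ex, ← ey] at this
    refine this.trans (mul_le_mul_of_nonneg_right ?_ hTs)
    rw [← sub_mul, abs_mul, abs_neg, abs_of_nonneg hs0, mul_comm]
    exact mul_le_mul hs h1 (abs_nonneg _) (by norm_num)
  have hwd : |w (logMap y) - w (logMap x)| ≤ |Lip| * (4 * δ) := by
    refine (hLip _ _).trans ?_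
    exact mul_le_mul (le_abs_self _) h2 (norm_nonneg _) (abs_nonneg _)
  have e : F w s y - F w s x = (w (logMap y) - w (logMap x)) * mixedEmbedding.norm y ^ (-s) +
      w (logMap x) * (mixedEmbedding.norm y ^ (-s) - mixedEmbedding.norm x ^ (-s)) := by
    unfold F; ring
  rw [e]
  refine (abs_add_le _ _).trans ?_
  rw [abs_mul, abs_mul, abs_of_nonneg (hw0 _),
    abs_of_nonneg (Real.rpow_pos_of_pos hNy0 _).le]
  have t1 : |w (logMap y) - w (logMap x)| * mixedEmbedding.norm y ^ (-s) ≤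
      |Lip| * (4 * δ) * T ^ (-s) :=
    mul_le_mul hwd hpy (Real.rpow_pos_of_pos hNy0 _).le (by positivity)
  have t2 : w (logMap x) * |mixedEmbedding.norm y ^ (-s) - mixedEmbedding.norm x ^ (-s)| ≤
      1 * (2 * (n * δ) * T ^ (-s)) :=
    mul_le_mul (hw1 _) hdiff (abs_nonneg _) (by norm_num)
  calc _ ≤ |Lip| * (4 * δ) * T ^ (-s) + 1 * (2 * (n * δ) * T ^ (-s)) := add_le_add t1 t2
    _ = _ := by ring

theorem F_eq_zero_of (w : logSpace K → ℝ) (R : ℝ) (hsupp : ∀ y, w y ≠ 0 → ‖y‖ ≤ R) {s : ℝ}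
    (hs : 0 < s) {x : mixedSpace K}
    (hx : ¬ (mixedEmbedding.norm x ≠ 0 ∧ ‖logMap x‖ ≤ R)) : F w s x = 0 := by
  unfold F
  by_cases h0 : mixedEmbedding.norm x = 0
  · rw [h0, Real.zero_rpow (by linarith), mul_zero]
  · have : ¬ ‖logMap x‖ ≤ R := fun h ↦ hx ⟨h0, h⟩
    have hw : w (logMap x) = 0 := by
      by_contra hne
      exact this (hsupp _ hne)
    rw [hw, zero_mul]

variable (K) in
/-- **W2**. -/
theorem F_lipschitz (w : logSpace K → ℝ) (R Lip : ℝ) (hw0 : ∀ y, 0 ≤ w y) (hw1 : ∀ y, w y ≤ 1)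
    (hsupp : ∀ y, w y ≠ 0 → ‖y‖ ≤ R) (hLip : ∀ y y', |w y - w y'| ≤ Lip * ‖y - y'‖) :
    ∃ A ρ : ℝ, 0 ≤ A ∧ 0 < ρ ∧ ∀ s : ℝ, 1 ≤ s → s ≤ 2 → ∀ x h : mixedSpace K, 1 ≤ ‖x‖ →
      ‖h‖ ≤ ρ * ‖x‖ →
      |F w s (x + h) - F w s x| ≤ A * ‖h‖ * ‖x‖ ^ (-((finrank ℚ K : ℝ) + 1)) := by
  obtain ⟨c, hc0, hc1, hc⟩ := exists_cone_const (K := K) R
  set n := finrank ℚ K with hn
  set a : ℝ := (c / 4) ^ n with ha
  have ha0 : 0 < a := by positivity
  have ha1 : a ≤ 1 := pow_le_one₀ (by positivity) (by linarith)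
  refine ⟨(4 * |Lip| + 2 * n) * (4 / c) * a ^ (-2 : ℝ), c / 4, by positivity, by positivity, ?_⟩
  intro s hs1 hs2 x h hx hh
  have hx0 : 0 < ‖x‖ := by linarith
  set m : ℝ := c / 4 * ‖x‖ with hm
  have hm0 : 0 < m := by positivity
  -- the final bound, once both points are in the `m`-cone
  have fin : (∀ v, m ≤ normAtPlace v x) → (∀ v, m ≤ normAtPlace v (x + h)) →
      |F w s (x + h) - F w s x| ≤
        (4 * |Lip| + 2 * n) * (4 / c) * a ^ (-2 : ℝ) * ‖h‖ * ‖x‖ ^ (-((n : ℝ) + 1)) := by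
    intro h1 h2
    have := F_sub_le w Lip hw0 hw1 hLip (by linarith : (0 : ℝ) ≤ s) hs2 hm0 h1 h2
    rw [add_sub_cancel_left] at this
    refine this.trans ?_
    have e1 : (m ^ n) ^ (-s) = a ^ (-s) * (‖x‖ ^ n) ^ (-s) := by
      rw [hm, mul_pow, Real.mul_rpow (by positivity) (by positivity)]
    have e2 : a ^ (-s) ≤ a ^ (-2 : ℝ) :=
      Real.rpow_le_rpow_of_exponent_ge ha0 ha1 (by linarith)
    have e3 : (‖x‖ ^ n) ^ (-s) ≤ (‖x‖ ^ n) ^ (-1 : ℝ) :=
      Real.rpow_le_rpow_of_exponent_le (one_le_pow₀ hx) (by linarith)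
    have e4 : ‖x‖ ^ (-((n : ℝ) + 1)) = (‖x‖ ^ n) ^ (-1 : ℝ) * ‖x‖⁻¹ := by
      rw [Real.rpow_neg_one, Real.rpow_neg hx0.le, Real.rpow_add hx0, Real.rpow_natCast,
        Real.rpow_one, mul_inv]
    have e5 : ‖h‖ / m = 4 / c * ‖h‖ * ‖x‖⁻¹ := by
      rw [hm]; field_simp
    rw [e1, e4, e5]
    have e6 : a ^ (-s) * (‖x‖ ^ n) ^ (-s) ≤ a ^ (-2 : ℝ) * (‖x‖ ^ n) ^ (-1 : ℝ) :=
      mul_le_mul e2 e3 (Real.rpow_pos_of_pos (by positivity) _).le
        (Real.rpow_pos_of_pos ha0 _).le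
    calc (4 * |Lip| + 2 * ↑n) * (4 / c * ‖h‖ * ‖x‖⁻¹) * (a ^ (-s) * (‖x‖ ^ n) ^ (-s))
        ≤ (4 * |Lip| + 2 * ↑n) * (4 / c * ‖h‖ * ‖x‖⁻¹) * (a ^ (-2 : ℝ) * (‖x‖ ^ n) ^ (-1 : ℝ)) :=
          mul_le_mul_of_nonneg_left e6 (by positivity)
      _ = _ := by ring
  by_cases hA : mixedEmbedding.norm x ≠ 0 ∧ ‖logMap x‖ ≤ R
  · have h1 := hc x hA.1 hA.2
    apply fin
    · intro v
      have := h1 v
      nlinarith
    · intro v
      have := h1 v
      have h3 := (abs_le.mp (abs_normAtPlace_sub_le v x h)).1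
      nlinarith
  · by_cases hB : mixedEmbedding.norm (x + h) ≠ 0 ∧ ‖logMap (x + h)‖ ≤ R
    · have h1 := hc (x + h) hB.1 hB.2
      have h4 : ‖x‖ - ‖h‖ ≤ ‖x + h‖ := by
        have := norm_sub_norm_le x (-h)
        rwa [norm_neg, sub_neg_eq_add] at this
      have h5 : 3 / 4 * c * ‖x‖ ≤ c * ‖x + h‖ := by
        have : 3 / 4 * ‖x‖ ≤ ‖x + h‖ := by nlinarith
        nlinarith
      apply fin
      · intro v
        have := h1 v
        have h3 := (abs_le.mp (abs_normAtPlace_sub_le v x h)).2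
        nlinarith
      · intro v
        have := h1 v
        nlinarith
    · rw [F_eq_zero_of w R hsupp (by linarith) hA, F_eq_zero_of w R hsupp (by linarith) hB,
        sub_zero, abs_zero]
      positivity

end Fermat.Agent.S14.Analytic
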