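import Fermat.Agent.S14.Analytic.Basic

set_option autoImplicit false

/-!
# S14, analytic core, node W3: unfolding the partial zeta function of an ideal class

`w_K * ζ(s, C) = N(J)^s * ∑_{β ∈ J} F w s β` for `[J] = C⁻¹` and `w` a partition of unity for the
unit lattice.
-/

namespace Fermat.Agent.S14.Analytic

open NumberField NumberField.mixedEmbedding NumberField.InfinitePlace NumberField.Units
  NumberField.Units.dirichletUnitTheorem Module Ideal

open scoped Classical nonZeroDivisors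

namespace Unfold

/-- summation along the fibres of a map, for nonnegative functions. -/
theorem hasSum_of_fiberwise {α β : Type*} (π : α → β) {f : α → ℝ} (hf : ∀ a, 0 ≤ f a)
    {g : β → ℝ} {S : ℝ} (hfib : ∀ b, HasSum (fun a : {a // π a = b} ↦ f a) (g b))
    (hg : HasSum g S) : HasSum f S := by
  rw [← (Equiv.sigmaFiberEquiv π).hasSum_iff]
  refine HasSum.sigma_of_hasSum hg hfib ?_
  refine (summable_sigma_of_nonneg (f := f ∘ (Equiv.sigmaFiberEquiv π)) (fun x ↦ hf _)).mpr ?_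
  refine ⟨fun b ↦ (hfib b).summable, ?_⟩
  have : (fun b ↦ ∑' y : {a // π a = b}, (f ∘ (Equiv.sigmaFiberEquiv π)) ⟨b, y⟩) = g := by
    funext b
    exact (hfib b).tsum_eq
  rw [this]
  exact hg.summable

theorem hasSum_const_of_card {α : Type*} [Finite α] (c : ℝ) :
    HasSum (fun _ : α ↦ c) (Nat.card α * c) := by
  have := Fintype.ofFinite α
  have h := hasSum_fintype (fun _ : α ↦ c)
  simpa [Nat.card_eq_fintype_card] using h

variable {K : Type*} [Field K] [NumberField K]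

/-- the map from units to the unit lattice. -/
noncomputable def toLattice (u : (𝓞 K)ˣ) : unitLattice K :=
  ⟨logEmbedding K (Additive.ofMul u), Submodule.mem_map_of_mem trivial⟩

theorem toLattice_surjective : Function.Surjective (toLattice (K := K)) := by
  rintro ⟨_, ⟨u, -, rfl⟩⟩
  exact ⟨u.toMul, rfl⟩

/-- the fibres of `toLattice` are cosets of the torsion. -/
noncomputable def fiberEquiv (u₀ : (𝓞 K)ˣ) :
    torsion K ≃ {u : (𝓞 K)ˣ // toLattice u = toLattice u₀} where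
  toFun t := ⟨t * u₀, by
    apply Subtype.ext
    change logEmbedding K (Additive.ofMul ((t : (𝓞 K)ˣ) * u₀)) = logEmbedding K (Additive.ofMul u₀)
    rw [ofMul_mul, map_add, (logEmbedding_eq_zero_iff).mpr t.2, zero_add]⟩
  invFun u := ⟨u.1 * u₀⁻¹, by
    have h := congrArg Subtype.val u.2
    change logEmbedding K (Additive.ofMul u.1) = logEmbedding K (Additive.ofMul u₀) at h
    rw [← logEmbedding_eq_zero_iff, ofMul_mul, map_add, ofMul_inv, map_neg, h, add_neg_cancel]⟩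
  left_inv t := by ext; simp
  right_inv u := by ext; simp

theorem hasSum_units (w : logSpace K → ℝ) (hw0 : ∀ y, 0 ≤ w y)
    (hw : ∀ y, HasSum (fun ℓ : unitLattice K ↦ w (y + ℓ)) 1) (y : logSpace K) :
    HasSum (fun u : (𝓞 K)ˣ ↦ w (y + logEmbedding K (Additive.ofMul u))) (torsionOrder K) := by
  refine hasSum_of_fiberwise (toLattice (K := K)) (fun u ↦ hw0 _)
    (g := fun ℓ ↦ torsionOrder K * w (y + ℓ)) ?_ ?_
  · intro ℓ
    obtain ⟨u₀, rfl⟩ := toLattice_surjective ℓ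
    have : Finite {u : (𝓞 K)ˣ // toLattice u = toLattice u₀} := Finite.of_equiv _ (fiberEquiv u₀)
    have hc : Nat.card {u : (𝓞 K)ˣ // toLattice u = toLattice u₀} = torsionOrder K :=
      (Nat.card_congr (fiberEquiv u₀)).symm
    have h := hasSum_const_of_card (α := {u : (𝓞 K)ˣ // toLattice u = toLattice u₀})
      (w (y + (toLattice u₀ : logSpace K)))
    rw [hc] at h
    convert h using 2 with u
    have h2 := congrArg Subtype.val u.2
    change logEmbedding K (Additive.ofMul u.1) = _ at h2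
    rw [h2]
  · simpa using (hw y).mul_left (torsionOrder K : ℝ)


theorem norm_mixedEmbedding_eq_absNorm (β : 𝓞 K) :
    mixedEmbedding.norm (mixedEmbedding K (β : K)) = (absNorm (span {β}) : ℝ) := by
  rw [absNorm_span_singleton, Nat.cast_natAbs, ← Rat.cast_intCast, Int.cast_abs,
    Algebra.coe_norm_int, ← norm_eq_norm]

theorem F_unit_mul (w : logSpace K → ℝ) (s : ℝ) {β₀ : 𝓞 K} (h0 : β₀ ≠ 0) (u : (𝓞 K)ˣ) :
    F w s (mixedEmbedding K (((u : 𝓞 K) * β₀ : 𝓞 K) : K)) =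
      w (logMap (mixedEmbedding K (β₀ : K)) + logEmbedding K (Additive.ofMul u)) *
        (absNorm (span {β₀}) : ℝ) ^ (-s) := by
  have hx : mixedEmbedding.norm (mixedEmbedding K (β₀ : K)) ≠ 0 := by
    rw [norm_mixedEmbedding_eq_absNorm]
    simpa [absNorm_eq_zero_iff] using h0
  have e : mixedEmbedding K (((u : 𝓞 K) * β₀ : 𝓞 K) : K) = u • mixedEmbedding K (β₀ : K) := by
    rw [unitSMul_smul, ← map_mul]
    rfl
  unfold F
  rw [e, logMap_unit_smul u hx, norm_unit_smul, norm_mixedEmbedding_eq_absNorm, add_comm]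

theorem hasSum_orbit (w : logSpace K → ℝ) (hw0 : ∀ y, 0 ≤ w y)
    (hw : ∀ y, HasSum (fun ℓ : unitLattice K ↦ w (y + ℓ)) 1) (s : ℝ) {β₀ : 𝓞 K} (h0 : β₀ ≠ 0) :
    HasSum (fun u : (𝓞 K)ˣ ↦ F w s (mixedEmbedding K (((u : 𝓞 K) * β₀ : 𝓞 K) : K)))
      (torsionOrder K * (absNorm (span {β₀}) : ℝ) ^ (-s)) := by
  simp_rw [F_unit_mul w s h0]
  exact (hasSum_units w hw0 hw _).mul_right _

theorem F_nonneg (w : logSpace K → ℝ) (hw0 : ∀ y, 0 ≤ w y) (s : ℝ) (x : mixedSpace K) :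
    0 ≤ F w s x :=
  mul_nonneg (hw0 _) (Real.rpow_nonneg (mixedEmbedding.norm_nonneg _) _)


/-- the principal ideal generated by a nonzero element, as a nonzero ideal. -/
noncomputable def spanNZ (β : 𝓞 K) (h : β ≠ 0) : (Ideal (𝓞 K))⁰ :=
  ⟨span {β}, mem_nonZeroDivisors_of_ne_zero (by simpa using h)⟩

/-- the fibre of `β ↦ (β)` is a unit orbit. -/
noncomputable def orbitEquiv (J : Ideal (𝓞 K)) {β₀ : 𝓞 K} (hβ₀ : β₀ ∈ J) (h0 : β₀ ≠ 0) :
    (𝓞 K)ˣ ≃ {β : {β : J // β ≠ 0} //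
      spanNZ (β.1 : 𝓞 K) (fun h ↦ β.2 (Subtype.ext h)) = spanNZ β₀ h0} :=
  Equiv.ofBijective
    (fun u ↦ ⟨⟨⟨(u : 𝓞 K) * β₀, J.mul_mem_left _ hβ₀⟩, fun h ↦ by
        have := congrArg Subtype.val h
        simp [h0] at this⟩, by
      apply Subtype.ext
      change span {(u : 𝓞 K) * β₀} = span {β₀}
      exact span_singleton_mul_left_unit u.isUnit β₀⟩)
    ⟨fun u v h ↦ by
      have h1 := congrArg (fun x ↦ ((x.1.1 : J) : 𝓞 K)) h
      simp only at h1
      exact Units.ext (mul_right_cancel₀ h0 h1), fun β ↦ by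
      have h1 : span {((β.1.1 : J) : 𝓞 K)} = span {β₀} := congrArg Subtype.val β.2
      obtain ⟨u, hu⟩ := span_singleton_eq_span_singleton.mp h1
      refine ⟨u⁻¹, ?_⟩
      apply Subtype.ext
      apply Subtype.ext
      apply Subtype.ext
      change ((u⁻¹ : (𝓞 K)ˣ) : 𝓞 K) * β₀ = _
      calc ((u⁻¹ : (𝓞 K)ˣ) : 𝓞 K) * β₀ = ((u⁻¹ : (𝓞 K)ˣ) : 𝓞 K) * (((β.1.1 : J) : 𝓞 K) * u) := by
            rw [hu]
        _ = _ := by rw [mul_comm, mul_assoc, Units.mul_inv, mul_one]⟩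


theorem exists_gen_iff (C : ClassGroup (𝓞 K)) (J a : (Ideal (𝓞 K))⁰)
    (hJ : ClassGroup.mk0 J = C⁻¹) :
    (∃ β₀ : 𝓞 K, β₀ ∈ (J : Ideal (𝓞 K)) ∧ β₀ ≠ 0 ∧ span {β₀} = ((J * a : (Ideal (𝓞 K))⁰) :
      Ideal (𝓞 K))) ↔ ClassGroup.mk0 a = C := by
  have key : ClassGroup.mk0 a = C ↔ ((J * a : (Ideal (𝓞 K))⁰) : Ideal (𝓞 K)).IsPrincipal := by
    rw [← ClassGroup.mk0_eq_one_iff (SetLike.coe_mem _), Subtype.coe_eta, map_mul, hJ,
      inv_mul_eq_one, eq_comm]
  rw [key]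
  constructor
  · rintro ⟨β₀, -, -, h⟩
    exact ⟨⟨β₀, h.symm⟩⟩
  · rintro ⟨β₀, h⟩
    have h' : ((J * a : (Ideal (𝓞 K))⁰) : Ideal (𝓞 K)) = span {β₀} := h
    refine ⟨β₀, ?_, ?_, h'.symm⟩
    · have : β₀ ∈ ((J * a : (Ideal (𝓞 K))⁰) : Ideal (𝓞 K)) := by
        rw [h']; exact mem_span_singleton_self β₀
      rw [Submonoid.coe_mul] at this
      exact Ideal.mul_le_left this
    · rintro rfl
      have h0 : ((J * a : (Ideal (𝓞 K))⁰) : Ideal (𝓞 K)) ≠ 0 := nonZeroDivisors.coe_ne_zero _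
      apply h0
      rw [h']
      simp

variable (K) in
theorem hasSum_F_of_summable (w : logSpace K → ℝ) (hw0 : ∀ y, 0 ≤ w y)
    (hw : ∀ y, HasSum (fun ℓ : unitLattice K ↦ w (y + ℓ)) 1)
    (C : ClassGroup (𝓞 K)) (J : (Ideal (𝓞 K))⁰) (hJ : ClassGroup.mk0 J = C⁻¹) {s : ℝ}
    (hs : 0 < s) (hsum : Summable (term K s)) :
    HasSum (fun β : (J : Ideal (𝓞 K)) ↦ F w s (mixedEmbedding K ((β : 𝓞 K) : K)))
      (torsionOrder K * ((absNorm (J : Ideal (𝓞 K)) : ℝ) ^ (-s) * classZeta K C s)) := by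
  have hinj : Function.Injective
      (Subtype.val : {β : (J : Ideal (𝓞 K)) // β ≠ 0} → (J : Ideal (𝓞 K))) :=
    Subtype.val_injective
  rw [← hinj.hasSum_iff]
  swap
  · intro β hβ
    have : β = 0 := by
      by_contra h
      exact hβ ⟨⟨β, h⟩, rfl⟩
    subst this
    simp [F, Real.zero_rpow (neg_ne_zero.mpr hs.ne')]
  set g : (Ideal (𝓞 K))⁰ → ℝ := fun I ↦
    if (∃ β₀ : 𝓞 K, β₀ ∈ (J : Ideal (𝓞 K)) ∧ β₀ ≠ 0 ∧ span {β₀} = (I : Ideal (𝓞 K))) then
      torsionOrder K * (absNorm (I : Ideal (𝓞 K)) : ℝ) ^ (-s) else 0 with hg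
  refine hasSum_of_fiberwise (fun β : {β : (J : Ideal (𝓞 K)) // β ≠ 0} ↦
    spanNZ (β.1 : 𝓞 K) (fun h ↦ β.2 (Subtype.ext h))) (fun β ↦ F_nonneg w hw0 s _) (g := g) ?_ ?_
  · intro I
    by_cases hI : ∃ β₀ : 𝓞 K, β₀ ∈ (J : Ideal (𝓞 K)) ∧ β₀ ≠ 0 ∧ span {β₀} = (I : Ideal (𝓞 K))
    · have hgI : g I = torsionOrder K * (absNorm (I : Ideal (𝓞 K)) : ℝ) ^ (-s) := if_pos hI
      obtain ⟨β₀, hβ₀, h0, hI'⟩ := hI
      have hIeq : I = spanNZ β₀ h0 := Subtype.ext hI'.symm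
      subst hIeq
      rw [← (orbitEquiv (J : Ideal (𝓞 K)) hβ₀ h0).hasSum_iff, hgI]
      exact hasSum_orbit w hw0 hw s h0
    · have hgI : g I = 0 := if_neg hI
      have : IsEmpty {β : {β : (J : Ideal (𝓞 K)) // β ≠ 0} //
          spanNZ (β.1 : 𝓞 K) (fun h ↦ β.2 (Subtype.ext h)) = I} :=
        ⟨fun β ↦ hI ⟨β.1.1, β.1.1.2, fun h ↦ β.1.2 (Subtype.ext h), congrArg Subtype.val β.2⟩⟩
      rw [hgI]
      exact hasSum_empty
  · have hinj2 : Function.Injective (fun a : (Ideal (𝓞 K))⁰ ↦ J * a) := mul_right_injective J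
    rw [← hinj2.hasSum_iff]
    swap
    · intro I hI
      apply if_neg
      rintro ⟨β₀, hβ₀, h0, hI'⟩
      apply hI
      have hdvd : (J : Ideal (𝓞 K)) ∣ (I : Ideal (𝓞 K)) := by
        rw [← hI', dvd_span_singleton]
        exact hβ₀
      obtain ⟨a, ha⟩ := (nonZeroDivisors_dvd_iff_dvd_coe).mpr hdvd
      exact ⟨a, ha.symm⟩
    have h1 : HasSum (fun a : (Ideal (𝓞 K))⁰ ↦ if ClassGroup.mk0 a = C then term K s a else 0)
        (classZeta K C s) := by
      have : Summable (fun a : (Ideal (𝓞 K))⁰ ↦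
          if ClassGroup.mk0 a = C then term K s a else 0) := by
        refine Summable.of_nonneg_of_le (fun a ↦ ?_) (fun a ↦ ?_) hsum
        · split_ifs
          · exact Real.rpow_nonneg (Nat.cast_nonneg _) _
          · exact le_rfl
        · split_ifs
          · exact le_rfl
          · exact Real.rpow_nonneg (Nat.cast_nonneg _) _
      exact this.hasSum
    have hfun : (g ∘ fun a : (Ideal (𝓞 K))⁰ ↦ J * a) = fun a ↦ (torsionOrder K : ℝ) *
        ((absNorm (J : Ideal (𝓞 K)) : ℝ) ^ (-s) *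
          if ClassGroup.mk0 a = C then term K s a else 0) := by
      funext a
      simp only [Function.comp_apply, hg]
      by_cases ha : ClassGroup.mk0 a = C
      · rw [if_pos ((exists_gen_iff C J a hJ).mpr ha), if_pos ha, Submonoid.coe_mul, map_mul,
          Nat.cast_mul, Real.mul_rpow (Nat.cast_nonneg _) (Nat.cast_nonneg _)]
        rfl
      · rw [if_neg (fun h ↦ ha ((exists_gen_iff C J a hJ).mp h)), if_neg ha, mul_zero, mul_zero]
    rw [hfun]
    exact (h1.mul_left ((absNorm (J : Ideal (𝓞 K)) : ℝ) ^ (-s))).mul_left (torsionOrder K : ℝ)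

end Unfold

open Unfold

variable {K : Type*} [Field K] [NumberField K]

variable (K) in
/-- **W3**. -/
theorem classZeta_eq_tsum_F (w : logSpace K → ℝ) (hw0 : ∀ y, 0 ≤ w y)
    (hw : ∀ y, HasSum (fun ℓ : unitLattice K ↦ w (y + ℓ)) 1)
    (C : ClassGroup (𝓞 K)) (J : (Ideal (𝓞 K))⁰) (hJ : ClassGroup.mk0 J = C⁻¹) {s : ℝ}
    (hs : 1 < s) :
    Summable (fun β : (J : Ideal (𝓞 K)) ↦ F w s (mixedEmbedding K ((β : 𝓞 K) : K))) ∧
    (torsionOrder K : ℝ) * classZeta K C s = (absNorm (J : Ideal (𝓞 K)) : ℝ) ^ s *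
      ∑' β : (J : Ideal (𝓞 K)), F w s (mixedEmbedding K ((β : 𝓞 K) : K)) := by
  have h := hasSum_F_of_summable K w hw0 hw C J hJ (by linarith : (0 : ℝ) < s)
    (summable_term K hs)
  refine ⟨h.summable, ?_⟩
  have hN : (0 : ℝ) < absNorm (J : Ideal (𝓞 K)) :=
    Nat.cast_pos.mpr (absNorm_pos_of_nonZeroDivisors J)
  rw [h.tsum_eq, Real.rpow_neg hN.le]
  have : (absNorm (J : Ideal (𝓞 K)) : ℝ) ^ s ≠ 0 := (Real.rpow_pos_of_pos hN s).ne'
  field_simp

end Fermat.Agent.S14.Analytic
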